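/-
S25: the `AlgSpec` field `chi_locConst` (local constancy of the Euler characteristic).
Owner: helper278.

The only input which is not yet available as a landed file, the compatibility of `δ` with base
change (block T1-F, `BaseChange.exists_equiv_δ`), is taken as an explicit hypothesis
`DeltaBCStatement`.
-/
import Fermat.Agent.S25.AlgSpec
import Fermat.Agent.S25.FiniteModelLemmas
import Fermat.Agent.S25.TripleFinite
import Fermat.Agent.S25.P1Lattice

set_option autoImplicit false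

universe u

open scoped TensorProduct Polynomial

namespace Fermat.Agent.S25

namespace Triple

/-- The statement of T1-F (`BaseChange.exists_equiv_δ`), weak form: `δ` commutes with base
change. -/
def DeltaBCStatement {k : Type u} [Field k] (𝔠 : CurveCharts k) : Prop :=
  ∀ (A A' : Type u) [CommRing A] [Algebra k A] [CommRing A'] [Algebra k A'] [Algebra A A']
    (φ : A →ₐ[k] A') (_ : ∀ a, algebraMap A A' a = φ a) (T : Triple 𝔠 A) (T' : Triple 𝔠 A')
    (_ : BaseChange φ T T'),
    ∃ (e0 : A' ⊗[A] (T.N₁ × T.N₂) ≃ₗ[A'] (T'.N₁ × T'.N₂)) (e1 : A' ⊗[A] T.N₁₂ ≃ₗ[A'] T'.N₁₂),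
      ∀ z, e1 (T.δ.baseChange A' z) = T'.δ (e0 z)

/-- every invertible triple has a finite model -/
theorem exists_finiteModel {k : Type u} [Field k] {𝔠 : CurveCharts k}
    {A : Type u} [CommRing A] [Algebra k A] (T : Triple 𝔠 A) (hT : T.IsInvertible) :
    Nonempty (FiniteModel T.δ) :=
  Triple.exists_finiteModel_of_latticeStatement
    (fun t ρ₁ ρ₂ => exists_finiteModel_of_lattice t ρ₁ ρ₂) T hT

section LinAlg

variable {K : Type u} [Field K] {V0 V1 W0 W1 : Type u} [AddCommGroup V0] [Module K V0]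
  [AddCommGroup V1] [Module K V1] [AddCommGroup W0] [Module K W0] [AddCommGroup W1] [Module K W1]

theorem finrank_ker_eq_of_equiv (d : V0 →ₗ[K] V1) (d' : W0 →ₗ[K] W1) (e0 : V0 ≃ₗ[K] W0)
    (e1 : V1 ≃ₗ[K] W1) (h : ∀ z, e1 (d z) = d' (e0 z)) :
    Module.finrank K (LinearMap.ker d) = Module.finrank K (LinearMap.ker d') := by
  have hk : (LinearMap.ker d).map e0.toLinearMap = LinearMap.ker d' := by
    ext w
    simp only [Submodule.mem_map, LinearMap.mem_ker, LinearEquiv.coe_coe]
    constructor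
    · rintro ⟨z, hz, rfl⟩
      rw [← h, hz, map_zero]
    · intro hw
      refine ⟨e0.symm w, ?_, e0.apply_symm_apply w⟩
      apply e1.injective
      rw [h, e0.apply_symm_apply, hw, map_zero]
  rw [← hk]
  exact (e0.submoduleMap (LinearMap.ker d)).finrank_eq

theorem finrank_coker_eq_of_equiv (d : V0 →ₗ[K] V1) (d' : W0 →ₗ[K] W1) (e0 : V0 ≃ₗ[K] W0)
    (e1 : V1 ≃ₗ[K] W1) (h : ∀ z, e1 (d z) = d' (e0 z)) :
    Module.finrank K (V1 ⧸ LinearMap.range d) = Module.finrank K (W1 ⧸ LinearMap.range d') := by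
  have hr : (LinearMap.range d).map e1.toLinearMap = LinearMap.range d' := by
    ext w
    simp only [Submodule.mem_map, LinearMap.mem_range, LinearEquiv.coe_coe]
    constructor
    · rintro ⟨_, ⟨z, rfl⟩, rfl⟩
      exact ⟨e0 z, (h z).symm⟩
    · rintro ⟨z, rfl⟩
      exact ⟨d (e0.symm z), ⟨_, rfl⟩, by rw [h, e0.apply_symm_apply]⟩
  exact (Submodule.Quotient.equiv _ _ e1 hr).finrank_eq

end LinAlg

/-- The `AlgSpec` field `chi_locConst`, relative to T1-F. -/
theorem chi_locConst_of_deltaBC {k : Type u} [Field k] {𝔠 : CurveCharts k}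
    (H : DeltaBCStatement 𝔠) (A : Type u) [CommRing A] [Algebra k A] (T : Triple 𝔠 A)
    (hT : T.IsInvertible) :
    ∃ f : PrimeSpectrum A → ℤ, IsLocallyConstant f ∧
      ∀ (K : Type u) [Field K] [Algebra k K] (φ : A →ₐ[k] K) (TK : Triple 𝔠 K), IsBC φ T TK →
        TK.chi = f (PrimeSpectrum.comap φ.toRingHom ⊥) := by
  obtain ⟨m⟩ := exists_finiteModel T hT
  obtain ⟨f, hf, hf'⟩ := m.exists_chi
  refine ⟨f, hf, ?_⟩
  intro K _ _ φ TK ⟨D⟩
  let _ : Algebra A K := φ.toRingHom.toAlgebra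
  obtain ⟨e0, e1, h⟩ := H A K φ (fun _ => rfl) T TK D
  have h2 := hf' K
  rw [finrank_ker_eq_of_equiv _ _ e0 e1 h, finrank_coker_eq_of_equiv _ _ e0 e1 h] at h2
  exact h2

end Triple

end Fermat.Agent.S25
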