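/-
S25: the `AlgSpec` field `chi_locConst`, unconditional (glue of `Alg/ChiLocConst.lean` and
`Triple/Delta.lean`).  Owner: helper122.
-/
import Fermat.Agent.S25.Alg.ChiLocConst
import Fermat.Agent.S25.Triple.Delta

set_option autoImplicit false

universe u

open scoped TensorProduct

namespace Fermat.Agent.S25

namespace Triple

theorem deltaBCStatement {k : Type u} [Field k] (𝔠 : CurveCharts k) : DeltaBCStatement 𝔠 := by
  intro A A' _ _ _ _ _ φ hφ T T' D
  obtain ⟨e0, e1, h, -, -⟩ := D.exists_equiv_δ hφ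
  exact ⟨e0, e1, h⟩

/-- The `AlgSpec` field `chi_locConst`. -/
theorem chi_locConst {k : Type u} [Field k] {𝔠 : CurveCharts k}
    (A : Type u) [CommRing A] [Algebra k A] (T : Triple 𝔠 A) (hT : T.IsInvertible) :
    ∃ f : PrimeSpectrum A → ℤ, IsLocallyConstant f ∧
      ∀ (K : Type u) [Field K] [Algebra k K] (φ : A →ₐ[k] K) (TK : Triple 𝔠 K), IsBC φ T TK →
        TK.chi = f (PrimeSpectrum.comap φ.toRingHom ⊥) :=
  chi_locConst_of_deltaBC (deltaBCStatement 𝔠) A T hT

end Triple

end Fermat.Agent.S25
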