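/-
S25 / AlgSpec.lift: square-zero lifting of `Pic⁰` triples.  Owner: helper183.
-/
import Fermat.Agent.S25.Alg.Lift.Data
import Fermat.Agent.S25.Alg.Lift.Rigid
import Fermat.Agent.S25.Alg.Lift.Cancel

set_option autoImplicit false

universe u

open scoped TensorProduct

namespace Fermat.Agent.S25.Lift

open Triple LiftAbs

variable {k : Type u} [Field k] {𝔠 : CurveCharts k}
  {A A' : Type u} [CommRing A] [Algebra k A] [CommRing A'] [Algebra k A']

/-- LT6: a `k`-algebra hom from `A'` to a field factors through `π`. -/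
theorem exists_factor (π : A' →ₐ[k] A) (hπ : Function.Surjective π)
    (hI : RingHom.ker π.toRingHom ^ 2 = ⊥) (K : Type u) [Field K] [Algebra k K]
    (φ : A' →ₐ[k] K) : ∃ ψ : A →ₐ[k] K, φ = ψ.comp π := by
  have hker : RingHom.ker π.toRingHom ≤ RingHom.ker φ.toRingHom := by
    intro a ha
    have h2 : a ^ 2 ∈ RingHom.ker π.toRingHom ^ 2 := Ideal.pow_mem_pow ha 2
    rw [hI, Ideal.mem_bot] at h2
    rw [RingHom.mem_ker]
    have : (φ a) ^ 2 = 0 := by rw [← map_pow, h2, map_zero]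
    exact pow_eq_zero_iff (two_ne_zero) |>.mp this
  exact ⟨AlgHom.liftOfSurjective π hπ φ hker, (AlgHom.liftOfSurjective_comp π hπ φ hker).symm⟩

/-- LT7: fibrewise degree zero lifts. -/
theorem deg0_of_isBC (π : A' →ₐ[k] A) (hπ : Function.Surjective π)
    (hI : RingHom.ker π.toRingHom ^ 2 = ⊥) (T' : Triple 𝔠 A') (T : Triple 𝔠 A)
    (h : IsBC π T' T) (hT : T.Deg0) : T'.Deg0 := by
  intro K _ _ φ TK hTK
  obtain ⟨ψ, rfl⟩ := exists_factor π hπ hI K φ
  exact hT K ψ TK (isBC_of_comp π ψ T' T TK h hTK)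

/-- The field `lift` of `AlgSpec`, verbatim. -/
theorem lift (𝔠 : CurveCharts k) (A A' : Type u) [CommRing A] [Algebra k A] [CommRing A']
    [Algebra k A'] (π : A' →ₐ[k] A) (hπ : Function.Surjective π)
    (hI : (RingHom.ker π.toRingHom) ^ 2 = ⊥) (T : Triple 𝔠 A) (hT : T.IsPic0) :
    ∃ T' : Triple 𝔠 A', T'.IsPic0 ∧ IsBC π T' T := by
  obtain ⟨D⟩ := exists_data π hπ hI T hT.inv
  exact ⟨D.T', ⟨D.inv, D.isRigid hπ hI hT.rigid, deg0_of_isBC π hπ hI D.T' T (D.isBC hπ) hT.deg0⟩,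
    D.isBC hπ⟩

end Fermat.Agent.S25.Lift
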