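/-
S25 / AlgSpec.val_unique: assembly.   Owner: helper183.

Two invertible triples over a valuation ring `V` with the same generic fibre are isomorphic
(`k` algebraically closed: the special fibre of each chart is integral).
-/
import Fermat.Agent.S25.AlgSpec
import Fermat.Agent.S25.Triple.Delta
import Fermat.Agent.S25.Alg.ValUnique.Chart
import Fermat.Agent.S25.Alg.ValUnique.Compare
import Fermat.Agent.S25.Alg.ValUnique.LatticeBC
import Fermat.Agent.S25.Alg.ValUnique.Rings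

set_option autoImplicit false

universe u

open scoped TensorProduct

namespace Fermat.Agent.S25.ValUnique

open Triple

variable {k : Type u} [Field k] {𝔠 : CurveCharts k}
  {V K : Type u} [CommRing V] [IsDomain V] [Field K]
  [Algebra k V] [Algebra k K] [Algebra V K] [IsScalarTower k V K] [IsFractionRing V K]

theorem isLattice₁ {T : Triple 𝔠 V} {TK : Triple 𝔠 K} (hT : T.IsInvertible)
    (D : BaseChange (IsScalarTower.toAlgHom k V K) T TK) : IsLattice V K D.β₁ :=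
  haveI := projective₁ T hT
  isLattice_of_isBCMap D.β₁ _ (fun _ => rfl) D.β₁A D.isBCMap_β₁A (fun _ => rfl)

theorem isLattice₂ {T : Triple 𝔠 V} {TK : Triple 𝔠 K} (hT : T.IsInvertible)
    (D : BaseChange (IsScalarTower.toAlgHom k V K) T TK) : IsLattice V K D.β₂ :=
  haveI := projective₂ T hT
  isLattice_of_isBCMap D.β₂ _ (fun _ => rfl) D.β₂A D.isBCMap_β₂A (fun _ => rfl)

theorem isLattice₁₂ {T : Triple 𝔠 V} {TK : Triple 𝔠 K} (hT : T.IsInvertible)
    (D : BaseChange (IsScalarTower.toAlgHom k V K) T TK) : IsLattice V K D.β₁₂ :=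
  haveI := projective₁₂ T hT
  isLattice_of_isBCMap D.β₁₂ _ (fun _ => rfl) D.β₁₂A D.isBCMap_β₁₂A (fun _ => rfl)

theorem iso_of_invertible [IsAlgClosed k] [ValuationRing V] (T T' : Triple 𝔠 V) (TK : Triple 𝔠 K)
    (hT : T.IsInvertible) (hT' : T'.IsInvertible)
    (D : BaseChange (IsScalarTower.toAlgHom k V K) T TK)
    (D' : BaseChange (IsScalarTower.toAlgHom k V K) T' TK) : Nonempty (Iso T T') := by
  have := projective₁ T hT
  have := projective₂ T hT
  have := projective₁₂ T hT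
  have := projective₁ T' hT'
  have := projective₂ T' hT'
  have := projective₁₂ T' hT'
  have := hT.inv₁
  have := hT.inv₂
  have := Lift.invertible_N₁₂ T hT
  have := hT'.inv₁
  have := hT'.inv₂
  have := Lift.invertible_N₁₂ T' hT'
  obtain ⟨c₁, e₁, hc₁, he₁⟩ := exists_equiv (isPrime₁ 𝔠 V) (isLattice₁ hT D) (isLattice₁ hT' D')
  obtain ⟨c₂, e₂, hc₂, he₂⟩ := exists_equiv (isPrime₂ 𝔠 V) (isLattice₂ hT D) (isLattice₂ hT' D')
  obtain ⟨c, e, hc, he⟩ := exists_equiv (isPrime₁₂ 𝔠 V) (isLattice₁₂ hT D) (isLattice₁₂ hT' D')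
  have hne : (IsLocalRing.maximalIdeal V) • (⊤ : Submodule V T'.N₁₂) ≠ ⊤ := by
    intro h
    have hp := isPrime₁₂ 𝔠 V
    apply smul_top_ne_top _ hp.ne_top (N := T'.N₁₂)
    rw [eq_top_iff]
    intro n _
    rw [mem_map_smul_top_iff, h]
    trivial
  obtain ⟨u₁, hu₁⟩ := compare (V := V) D.β₁ D'.β₁ e₁ e₁.surjective hc₁ he₁ T.ρ₁ T'.ρ₁ TK.ρ₁A
    (fun c y => TK.ρ₁A.map_smul c y) (fun x => D.comm₁ x) (fun x => D'.comm₁ x)
    (span_range_ρ₁ T hT.toIsQC) (span_range_ρ₁ T' hT'.toIsQC) (isLattice₁₂ hT' D') hne hc e he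
  obtain ⟨u₂, hu₂⟩ := compare (V := V) D.β₂ D'.β₂ e₂ e₂.surjective hc₂ he₂ T.ρ₂ T'.ρ₂ TK.ρ₂A
    (fun c y => TK.ρ₂A.map_smul c y) (fun x => D.comm₂ x) (fun x => D'.comm₂ x)
    (span_range_ρ₂ T hT.toIsQC) (span_range_ρ₂ T' hT'.toIsQC) (isLattice₁₂ hT' D') hne hc e he
  obtain ⟨E₁, hE₁⟩ := exists_equiv_rescale (isLattice₁ hT' D') e₁ he₁ u₁⁻¹
  obtain ⟨E₂, hE₂⟩ := exists_equiv_rescale (isLattice₂ hT' D') e₂ he₂ u₂⁻¹
  have h₁ : algebraMap V K (u₁⁻¹ : Vˣ) * c₁ = c := by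
    rw [hu₁, ← mul_assoc, ← map_mul]; simp
  have h₂ : algebraMap V K (u₂⁻¹ : Vˣ) * c₂ = c := by
    rw [hu₂, ← mul_assoc, ← map_mul]; simp
  rw [h₁] at hE₁
  rw [h₂] at hE₂
  refine ⟨⟨E₁, E₂, e, fun n => ?_, fun n => ?_⟩⟩
  · apply (isLattice₁₂ hT' D').inj
    rw [he, D.comm₁, D'.comm₁, hE₁]
    exact (TK.ρ₁A.map_smul c (D.β₁ n)).symm
  · apply (isLattice₁₂ hT' D').inj
    rw [he, D.comm₂, D'.comm₂, hE₂]
    exact (TK.ρ₂A.map_smul c (D.β₂ n)).symm

/-- The `AlgSpec` field `val_unique` (for algebraically closed `k`). -/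
theorem val_unique [IsAlgClosed k] (𝔠 : CurveCharts k)
    (V K : Type u) [CommRing V] [IsDomain V] [ValuationRing V] [Field K]
    [Algebra k V] [Algebra k K] [Algebra V K] [IsScalarTower k V K] [IsFractionRing V K]
    (T T' : Triple 𝔠 V) (TK : Triple 𝔠 K) (hT : T.IsPic0) (hT' : T'.IsPic0)
    (h : IsBC (IsScalarTower.toAlgHom k V K) T TK)
    (h' : IsBC (IsScalarTower.toAlgHom k V K) T' TK) : Nonempty (Iso T T') := by
  obtain ⟨D⟩ := h
  obtain ⟨D'⟩ := h'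
  exact iso_of_invertible T T' TK hT.inv hT'.inv D D'

end Fermat.Agent.S25.ValUnique
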