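/-
S25 / block K, task K6 (helper120): points of the charts.

General facts (no curve):
* `exists_algHom_ker_eq`      Nullstellensatz: maximal ideal = kernel of a rational point
* `eq_of_ker_eq`, `ker_isMaximal`, `quotKerEquiv`, `finrank_quot_ker`
* `exists_algHom_apply_eq`    `S` finite over `K[x]`, `x` transcendental: every value of `x` is taken
* `ofPoint`, `toPoint`, `pointEquiv`   `(B →ₐ[k] A) ≃ (A ⊗[k] B →ₐ[A] A)`
* `existsUnique_point_ker_eq` maximal ideals of `K ⊗ B` <-> `K`-valued points of `B`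
* `ker_ofPoint_eq_span`, `map_ker_ofPoint`   generators / base change of the ideal of a section
* `finrank_quotient_mul`, `finrank_quotient_prod_ker`, `exists_points_prod_eq`
      a nonzero ideal of a Dedekind domain of finite type over an algebraically closed field is a
      product of `dim (S / I)` ideals of rational points
* `invertible_of_ne_bot`      nonzero ideals of Dedekind domains are invertible modules

For `𝔠 : CurveCharts k`:
* `restr₁`, `restr₂`, `restr₁_injective`, `exists_restr₁_eq`, ...   points of `W₁ ∩ W₂`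
* `infinite_points₁₂`         (1)
* `exists_points_prod_eq₁`, `exists_points_prod_eq₂`   (3)
* `map_ker_restr₁`, `invertible_ker_point₁`, ... , `map_ker_ofPoint_restr₁`, ...   (4)
-/
import Fermat.Agent.S25.Core

set_option autoImplicit false

universe u

open scoped TensorProduct Polynomial

namespace Fermat.Agent.S25.Points

/-! ## Rational points of algebras over an algebraically closed field -/

section General

variable {K : Type*} [Field K] {S : Type*} [CommRing S] [Algebra K S]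

/-- Nullstellensatz: a maximal ideal of a finite type algebra over an algebraically closed field
is the kernel of a rational point. -/
theorem exists_algHom_ker_eq [IsAlgClosed K] [Algebra.FiniteType K S] (m : Ideal S) [hm : m.IsMaximal] :
    ∃ φ : S →ₐ[K] K, RingHom.ker φ = m := by
  let _ : Field (S ⧸ m) := Ideal.Quotient.field m
  have hft : Algebra.FiniteType K (S ⧸ m) :=
    Algebra.FiniteType.of_surjective (Ideal.Quotient.mkₐ K m) (Ideal.Quotient.mkₐ_surjective K m)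
  have hfin : Module.Finite K (S ⧸ m) := finite_of_finite_type_of_isJacobsonRing K (S ⧸ m)
  have hbij : Function.Bijective (algebraMap K (S ⧸ m)) :=
    IsAlgClosed.algebraMap_bijective_of_isIntegral
  let e : K ≃ₐ[K] (S ⧸ m) := AlgEquiv.ofBijective (Algebra.ofId K (S ⧸ m)) hbij
  refine ⟨(e.symm : (S ⧸ m) →ₐ[K] K).comp (Ideal.Quotient.mkₐ K m), ?_⟩
  ext s
  simp [RingHom.mem_ker, Ideal.Quotient.eq_zero_iff_mem]

theorem ker_isMaximal (φ : S →ₐ[K] K) : (RingHom.ker φ).IsMaximal :=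
  RingHom.ker_isMaximal_of_surjective φ (fun c => ⟨algebraMap K S c, φ.commutes c⟩)

/-- the residue field of a rational point -/
noncomputable def quotKerEquiv (φ : S →ₐ[K] K) : (S ⧸ RingHom.ker φ) ≃ₐ[K] K :=
  Ideal.quotientKerAlgEquivOfSurjective (f := φ) (fun c => ⟨algebraMap K S c, φ.commutes c⟩)

instance finite_quot_ker (φ : S →ₐ[K] K) : Module.Finite K (S ⧸ RingHom.ker φ) :=
  Module.Finite.equiv (quotKerEquiv φ).symm.toLinearEquiv

theorem finrank_quot_ker (φ : S →ₐ[K] K) : Module.finrank K (S ⧸ RingHom.ker φ) = 1 := by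
  rw [(quotKerEquiv φ).toLinearEquiv.finrank_eq, Module.finrank_self]

/-- a rational point is determined by its kernel -/
theorem eq_of_ker_eq {φ ψ : S →ₐ[K] K} (h : RingHom.ker φ = RingHom.ker ψ) : φ = ψ := by
  ext s
  have h1 : s - algebraMap K S (φ s) ∈ RingHom.ker φ := by
    rw [RingHom.mem_ker, map_sub, AlgHom.commutes]
    simp
  rw [h, RingHom.mem_ker, map_sub, AlgHom.commutes] at h1
  have h2 := sub_eq_zero.mp h1
  simpa using h2.symm

/-- If `S` is finite over `K[x]` with `x` transcendental, every value of `x` is taken at some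
rational point. -/
theorem exists_algHom_apply_eq [IsAlgClosed K] (x : S) (hfin : (Polynomial.aeval (R := K) x).toRingHom.Finite)
    (hx : Transcendental K x) (c : K) : ∃ φ : S →ₐ[K] K, φ x = c := by
  let f : K[X] →+* S := (Polynomial.aeval (R := K) x).toRingHom
  let _ : Algebra K[X] S := f.toAlgebra
  have htower : IsScalarTower K K[X] S := IsScalarTower.of_algebraMap_eq (fun a => by
    show algebraMap K S a = Polynomial.aeval x (Polynomial.C a)
    rw [Polynomial.aeval_C])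
  have hfinM : Module.Finite K[X] S := hfin
  have hft : Algebra.FiniteType K S := Algebra.FiniteType.trans (S := K[X]) inferInstance inferInstance
  have hint : Algebra.IsIntegral K[X] S := inferInstance
  have hinj : Function.Injective (algebraMap K[X] S) := transcendental_iff_injective.mp hx
  have hPmax : (Ideal.span {(Polynomial.X - Polynomial.C c : K[X])}).IsMaximal :=
    PrincipalIdealRing.isMaximal_of_irreducible (Polynomial.irreducible_X_sub_C c)
  obtain ⟨Q, hQmax, hQ⟩ := Ideal.exists_ideal_over_maximal_of_isIntegral (S := S)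
    (Ideal.span {(Polynomial.X - Polynomial.C c : K[X])})
    (by rw [(RingHom.injective_iff_ker_eq_bot _).mp hinj]; exact bot_le)
  obtain ⟨φ, hφ⟩ := exists_algHom_ker_eq (K := K) Q
  refine ⟨φ, ?_⟩
  have h1 : (Polynomial.X - Polynomial.C c : K[X]) ∈ Q.comap (algebraMap K[X] S) := by
    rw [hQ]; exact Ideal.mem_span_singleton_self _
  rw [Ideal.mem_comap, ← hφ, RingHom.mem_ker] at h1
  have h2 : algebraMap K[X] S (Polynomial.X - Polynomial.C c) = x - algebraMap K S c := by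
    show Polynomial.aeval x (Polynomial.X - Polynomial.C c) = _
    simp
  rw [h2, map_sub, AlgHom.commutes] at h1
  simpa [sub_eq_zero] using h1

end General

/-! ## Points with values in an algebra, sections -/

section Tensor

variable {k : Type*} [CommRing k] {A : Type*} [CommRing A] [Algebra k A] {B : Type*} [CommRing B]
  [Algebra k B]

/-- the `A`-point of `A ⊗ B` attached to an `A`-valued point of `B`. -/
noncomputable def ofPoint (r : B →ₐ[k] A) : A ⊗[k] B →ₐ[A] A :=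
  Algebra.TensorProduct.lift (AlgHom.id A A) r (fun _ _ => Commute.all _ _)

@[simp] theorem ofPoint_tmul (r : B →ₐ[k] A) (a : A) (b : B) : ofPoint r (a ⊗ₜ[k] b) = a * r b := by
  simp [ofPoint]

theorem ofPoint_surjective (r : B →ₐ[k] A) : Function.Surjective (ofPoint r) :=
  fun a => ⟨a ⊗ₜ 1, by simp⟩

/-- every element is congruent to a constant modulo the obvious elements of the ideal of a section -/
theorem sub_ofPoint_tmul_one_mem (r : B →ₐ[k] A) (z : A ⊗[k] B) :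
    z - (ofPoint r z) ⊗ₜ[k] (1 : B) ∈
      Ideal.span (Set.range fun b : B => (1 : A) ⊗ₜ[k] b - r b ⊗ₜ[k] (1 : B)) := by
  induction z using TensorProduct.induction_on with
  | zero => simp
  | tmul a b =>
    have h : a ⊗ₜ[k] b - (ofPoint r (a ⊗ₜ[k] b)) ⊗ₜ[k] (1 : B) =
        (a ⊗ₜ[k] (1 : B)) * ((1 : A) ⊗ₜ[k] b - r b ⊗ₜ[k] (1 : B)) := by
      rw [mul_sub, Algebra.TensorProduct.tmul_mul_tmul, Algebra.TensorProduct.tmul_mul_tmul,
        ofPoint_tmul, mul_one, one_mul, mul_one]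
    rw [h]
    exact Ideal.mul_mem_left _ _ (Ideal.subset_span ⟨b, rfl⟩)
  | add z₁ z₂ h₁ h₂ =>
    have h : z₁ + z₂ - (ofPoint r (z₁ + z₂)) ⊗ₜ[k] (1 : B) =
        (z₁ - (ofPoint r z₁) ⊗ₜ[k] (1 : B)) + (z₂ - (ofPoint r z₂) ⊗ₜ[k] (1 : B)) := by
      rw [map_add, TensorProduct.add_tmul]
      ring
    rw [h]
    exact add_mem h₁ h₂

/-- generators of the ideal of a section -/
theorem ker_ofPoint_eq_span (r : B →ₐ[k] A) :
    RingHom.ker (ofPoint r) =
      Ideal.span (Set.range fun b : B => (1 : A) ⊗ₜ[k] b - r b ⊗ₜ[k] (1 : B)) := by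
  apply le_antisymm
  · intro z hz
    have h := sub_ofPoint_tmul_one_mem r z
    rwa [(RingHom.mem_ker).mp hz, TensorProduct.zero_tmul, sub_zero] at h
  · rw [Ideal.span_le]
    rintro _ ⟨b, rfl⟩
    simp [RingHom.mem_ker]

/-- the ideal of a section commutes with base change -/
theorem map_ker_ofPoint {A' : Type*} [CommRing A'] [Algebra k A'] (φ : A →ₐ[k] A')
    (r : B →ₐ[k] A) :
    (RingHom.ker (ofPoint r)).map (Algebra.TensorProduct.map φ (AlgHom.id k B)) =
      RingHom.ker (ofPoint (φ.comp r)) := by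
  rw [ker_ofPoint_eq_span, ker_ofPoint_eq_span, Ideal.map_span]
  congr 1
  ext z
  constructor
  · rintro ⟨_, ⟨b, rfl⟩, rfl⟩
    exact ⟨b, by simp⟩
  · rintro ⟨b, rfl⟩
    exact ⟨_, ⟨b, rfl⟩, by simp⟩

/-- the `A`-valued point of `B` attached to an `A`-point of `A ⊗ B`. -/
noncomputable def toPoint (φ : A ⊗[k] B →ₐ[A] A) : B →ₐ[k] A :=
  (φ.restrictScalars k).comp Algebra.TensorProduct.includeRight

@[simp] theorem toPoint_apply (φ : A ⊗[k] B →ₐ[A] A) (b : B) : toPoint φ b = φ (1 ⊗ₜ[k] b) := rfl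

/-- (2) `A`-valued points of `B` are the same as `A`-rational points of `A ⊗ B`. -/
noncomputable def pointEquiv : (B →ₐ[k] A) ≃ (A ⊗[k] B →ₐ[A] A) where
  toFun := ofPoint
  invFun := toPoint
  left_inv r := by ext b; simp
  right_inv φ := by
    apply Algebra.TensorProduct.ext
    · ext
    · ext b
      simp

@[simp] theorem pointEquiv_apply (r : B →ₐ[k] A) : pointEquiv r = ofPoint r := rfl

@[simp] theorem pointEquiv_symm_apply (φ : A ⊗[k] B →ₐ[A] A) : pointEquiv.symm φ = toPoint φ := rfl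

/-- membership in the ideal of a section, on pure tensors `1 ⊗ b`. -/
theorem one_tmul_mem_ker_ofPoint (r : B →ₐ[k] A) (b : B) :
    (1 : A) ⊗ₜ[k] b ∈ RingHom.ker (ofPoint r) ↔ r b = 0 := by
  rw [RingHom.mem_ker, ofPoint_tmul, one_mul]

end Tensor

section TensorField

variable {k : Type*} [Field k] {K : Type*} [Field K] [Algebra k K] {B : Type*} [CommRing B]
  [Algebra k B]

/-- (2) maximal ideals of `K ⊗ B` are the kernels of the `K`-valued points of `B`. -/
theorem existsUnique_point_ker_eq [IsAlgClosed K] [Algebra.FiniteType k B] (m : Ideal (K ⊗[k] B))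
    [m.IsMaximal] : ∃! r : B →ₐ[k] K, RingHom.ker (ofPoint r) = m := by
  obtain ⟨φ, hφ⟩ := exists_algHom_ker_eq (K := K) m
  refine ⟨toPoint φ, ?_, ?_⟩
  · show RingHom.ker (pointEquiv (pointEquiv.symm φ)) = m
    rw [Equiv.apply_symm_apply, hφ]
  · intro r hr
    have : ofPoint r = φ := eq_of_ker_eq (hr.trans hφ.symm)
    rw [← this]
    exact (pointEquiv.symm_apply_apply r).symm

/-- finiteness descends along a field extension -/
theorem finite_of_finite_tensor (h : Module.Finite K (K ⊗[k] B)) : Module.Finite k B := by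
  rw [← Module.rank_lt_aleph0_iff] at h ⊢
  rw [Module.rank_baseChange] at h
  simpa using h

/-- if `B` contains a transcendental element, a finite-codimensional ideal of `K ⊗ B` is nonzero -/
theorem ne_bot_of_finite_quotient {x : B} (hx : Transcendental k x) (I : Ideal (K ⊗[k] B))
    (h : Module.Finite K ((K ⊗[k] B) ⧸ I)) : I ≠ ⊥ := by
  rintro rfl
  have h1 : Module.Finite K (K ⊗[k] B) :=
    Module.Finite.equiv ((AlgEquiv.quotientBot K (K ⊗[k] B)).toLinearEquiv)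
  have h2 := finite_of_finite_tensor h1
  exact hx (Algebra.IsAlgebraic.isAlgebraic x)

end TensorField

/-! ## Ideals of Dedekind domains of finite type over an algebraically closed field -/

section Dedekind

variable {K : Type*} [Field K] {S : Type*} [CommRing S] [IsDedekindDomain S] [Algebra K S]

/-- In a Dedekind domain, `J = (a) + J P` for every `a ∈ J \ J P` (`P` maximal). -/
theorem span_sup_mul_eq {J P : Ideal S} (hJ : J ≠ ⊥) (hP : P.IsMaximal) {a : S} (haJ : a ∈ J)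
    (ha : a ∉ J * P) : Ideal.span {a} ⊔ J * P = J := by
  have hle : Ideal.span {a} ⊔ J * P ≤ J :=
    sup_le ((Ideal.span_singleton_le_iff_mem _).mpr haJ) Ideal.mul_le_left
  obtain ⟨H, hH⟩ := Ideal.dvd_iff_le.mpr hle
  have h1 : J * H ∣ J * P := by
    rw [← hH]
    exact Ideal.dvd_iff_le.mpr le_sup_right
  have h2 : P ≤ H := Ideal.dvd_iff_le.mp ((mul_dvd_mul_iff_left hJ).mp h1)
  by_cases h : H = ⊤
  · rw [hH, h, Ideal.mul_top]
  · exfalso
    have h3 : P = H := hP.eq_of_le h h2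
    apply ha
    rw [h3, ← hH]
    exact Ideal.mem_sup_left (Ideal.mem_span_singleton_self a)

/-- there is an element of `J` outside `J P`. -/
theorem exists_mem_not_mem_mul {J P : Ideal S} (hJ : J ≠ ⊥) (hP : P.IsMaximal) :
    ∃ a ∈ J, a ∉ J * P := by
  by_contra hcon
  push Not at hcon
  have h1 : J * P = J * 1 := by
    rw [mul_one]
    exact le_antisymm Ideal.mul_le_left hcon
  have h2 : P = 1 := mul_left_cancel₀ hJ h1
  exact hP.ne_top (by rw [h2, Ideal.one_eq_top])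

/-- additivity of the dimension of the quotient -/
theorem finrank_quotient_mul (J P : Ideal S) (hJ : J ≠ ⊥) (hP : P.IsMaximal)
    [Module.Finite K (S ⧸ J)] [Module.Finite K (S ⧸ P)] :
    Module.Finite K (S ⧸ (J * P)) ∧
      Module.finrank K (S ⧸ (J * P)) = Module.finrank K (S ⧸ J) + Module.finrank K (S ⧸ P) := by
  obtain ⟨a, haJ, ha⟩ := exists_mem_not_mem_mul hJ hP
  have hsup := span_sup_mul_eq hJ hP haJ ha
  -- the two maps
  let μS : S ⧸ P →ₗ[S] S ⧸ (J * P) := Submodule.mapQ P (J * P) (LinearMap.mulLeft S a) (by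
    intro t ht
    exact Ideal.mul_mem_mul haJ ht)
  let πS : S ⧸ (J * P) →ₗ[S] S ⧸ J := Submodule.mapQ (J * P) J LinearMap.id (by
    intro t ht
    exact Ideal.mul_le_left ht)
  let μ : S ⧸ P →ₗ[K] S ⧸ (J * P) := μS.restrictScalars K
  let π : S ⧸ (J * P) →ₗ[K] S ⧸ J := πS.restrictScalars K
  have hμ : ∀ t : S, μ (Ideal.Quotient.mk P t) = Ideal.Quotient.mk (J * P) (a * t) := fun t => rfl
  have hπ : ∀ t : S, π (Ideal.Quotient.mk (J * P) t) = Ideal.Quotient.mk J t := fun t => rfl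
  have hπsurj : Function.Surjective π := by
    intro y
    obtain ⟨t, rfl⟩ := Ideal.Quotient.mk_surjective y
    exact ⟨Ideal.Quotient.mk _ t, hπ t⟩
  have hμinj : Function.Injective μ := by
    rw [injective_iff_map_eq_zero]
    intro y hy
    obtain ⟨t, rfl⟩ := Ideal.Quotient.mk_surjective y
    rw [hμ, Ideal.Quotient.eq_zero_iff_mem] at hy
    rw [Ideal.Quotient.eq_zero_iff_mem]
    let N : Ideal S := Submodule.comap (LinearMap.mulLeft S a) (J * P)
    have hPN : P ≤ N := fun t ht => Ideal.mul_mem_mul haJ ht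
    have hN : N ≠ ⊤ := by
      intro h
      have : (1 : S) ∈ N := by rw [h]; trivial
      apply ha
      simpa [N] using this
    rw [hP.eq_of_le hN hPN]
    exact hy
  have hexact : Function.Exact μ π := by
    intro y
    obtain ⟨s, rfl⟩ := Ideal.Quotient.mk_surjective y
    rw [hπ, Ideal.Quotient.eq_zero_iff_mem]
    constructor
    · intro hs
      rw [← hsup, Submodule.mem_sup] at hs
      obtain ⟨u, hu, z, hz, rfl⟩ := hs
      obtain ⟨t, rfl⟩ := Ideal.mem_span_singleton'.mp hu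
      refine ⟨Ideal.Quotient.mk P t, ?_⟩
      rw [hμ, Ideal.Quotient.mk_eq_mk_iff_sub_mem]
      have : a * t - (t * a + z) = -z := by ring
      rw [this]
      exact neg_mem hz
    · rintro ⟨y, hy⟩
      obtain ⟨t, rfl⟩ := Ideal.Quotient.mk_surjective y
      rw [hμ, Ideal.Quotient.mk_eq_mk_iff_sub_mem] at hy
      have h1 : a * t ∈ J := Ideal.mul_mem_right _ _ haJ
      have h2 : a * t - s ∈ J := Ideal.mul_le_left hy
      have : s = a * t - (a * t - s) := by ring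
      rw [this]
      exact sub_mem h1 h2
  have hfin : Module.Finite K (S ⧸ (J * P)) := Module.Finite.of_exact hexact hπsurj
  refine ⟨hfin, ?_⟩
  have h1 := LinearMap.finrank_range_add_finrank_ker π
  rw [LinearMap.range_eq_top.mpr hπsurj, finrank_top, (LinearMap.exact_iff.mp hexact),
    LinearMap.finrank_range_of_inj hμinj] at h1
  exact h1.symm

/-- the quotient by a product of `n` (nonzero) ideals of rational points has dimension `n`. -/
theorem finrank_quotient_prod_ker (s : Multiset (S →ₐ[K] K))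
    (hs : ∀ φ ∈ s, RingHom.ker φ ≠ ⊥) :
    Module.Finite K (S ⧸ (s.map fun φ => RingHom.ker φ).prod) ∧
      Module.finrank K (S ⧸ (s.map fun φ => RingHom.ker φ).prod) = s.card := by
  induction s using Multiset.induction_on with
  | empty =>
    have h1 : ((0 : Multiset (S →ₐ[K] K)).map fun φ => RingHom.ker φ).prod = ⊤ := by simp
    rw [h1, Multiset.card_zero]
    have : Subsingleton (S ⧸ (⊤ : Ideal S)) := Ideal.Quotient.subsingleton_iff.mpr rfl
    exact ⟨inferInstance, Module.finrank_zero_of_subsingleton⟩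
  | cons φ s ih =>
    obtain ⟨h1, h2⟩ := ih (fun ψ hψ => hs ψ (Multiset.mem_cons_of_mem hψ))
    have hne : (s.map fun φ => RingHom.ker φ).prod ≠ ⊥ := by
      rw [← Ideal.zero_eq_bot]
      apply Multiset.prod_ne_zero
      intro h0
      obtain ⟨ψ, hψ, hψ0⟩ := Multiset.mem_map.mp h0
      exact hs ψ (Multiset.mem_cons_of_mem hψ) hψ0
    have := finrank_quotient_mul (K := K) _ _ hne (ker_isMaximal φ)
    rw [Multiset.map_cons, Multiset.prod_cons, mul_comm, Multiset.card_cons]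
    refine ⟨this.1, ?_⟩
    rw [this.2, h2, finrank_quot_ker]

/-- (3) Over an algebraically closed field, a nonzero ideal `I` of a Dedekind domain of finite type
is a product of `dim (S / I)` ideals of rational points. -/
theorem exists_points_prod_eq [IsAlgClosed K] [Algebra.FiniteType K S] (I : Ideal S) (hI : I ≠ ⊥) :
    ∃ s : Multiset (S →ₐ[K] K), (s.map fun φ => RingHom.ker φ).prod = I ∧
      (∀ φ ∈ s, RingHom.ker φ ≠ ⊥) ∧
      Module.Finite K (S ⧸ I) ∧ Module.finrank K (S ⧸ I) = s.card := by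
  classical
  have hfac : ∀ P ∈ UniqueFactorizationMonoid.normalizedFactors I,
      ∃ φ : S →ₐ[K] K, RingHom.ker φ = P := by
    intro P hP
    have hprime := UniqueFactorizationMonoid.prime_of_normalized_factor P hP
    have hPp : P.IsPrime := Ideal.isPrime_of_prime hprime
    have hmax : P.IsMaximal := hPp.isMaximal hprime.ne_zero
    exact exists_algHom_ker_eq P
  have hnonempty : Nonempty (S →ₐ[K] K) := by
    obtain ⟨m, hm⟩ := Ideal.exists_maximal S
    obtain ⟨φ0, _⟩ := exists_algHom_ker_eq (K := K) m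
    exact ⟨φ0⟩
  choose! g hg using hfac
  let s : Multiset (S →ₐ[K] K) := (UniqueFactorizationMonoid.normalizedFactors I).map g
  have hmap : (s.map fun φ => RingHom.ker φ) = UniqueFactorizationMonoid.normalizedFactors I := by
    rw [Multiset.map_map]
    conv_rhs => rw [← Multiset.map_id (UniqueFactorizationMonoid.normalizedFactors I)]
    exact Multiset.map_congr rfl (fun P hP => hg P hP)
  have hprod : (s.map fun φ => RingHom.ker φ).prod = I := by
    rw [hmap]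
    exact Ideal.prod_normalizedFactors_eq_self hI
  have hne : ∀ φ ∈ s, RingHom.ker φ ≠ ⊥ := by
    intro φ hφ
    obtain ⟨P, hP, rfl⟩ := Multiset.mem_map.mp hφ
    rw [hg P hP]
    exact (UniqueFactorizationMonoid.prime_of_normalized_factor P hP).ne_zero
  have := finrank_quotient_prod_ker s hne
  rw [hprod] at this
  exact ⟨s, hprod, hne, this.1, this.2⟩

end Dedekind

section Invertible

/-- a nonzero ideal of a Dedekind domain is an invertible module. -/
theorem invertible_of_ne_bot {R : Type*} [CommRing R] [IsDedekindDomain R] (I : Ideal R)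
    (hI : I ≠ ⊥) : Module.Invertible R I := by
  let A := FractionRing R
  have hunit : IsUnit (I : FractionalIdeal (nonZeroDivisors R) A) :=
    IsUnit.mk0 _ (FractionalIdeal.coeIdeal_ne_zero.mpr hI)
  have hunit' : IsUnit (IsLocalization.coeSubmodule A I) := by
    have := hunit.map (FractionalIdeal.coeSubmoduleHom (nonZeroDivisors R) A)
    simpa using this
  have h1 : Module.Invertible R (IsLocalization.coeSubmodule A I) :=
    inferInstanceAs (Module.Invertible R hunit'.unit)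
  let e : I ≃ₗ[R] IsLocalization.coeSubmodule A I :=
    Submodule.equivMapOfInjective (Algebra.linearMap R A) (IsFractionRing.injective R A) I
  exact Module.Invertible.congr e.symm

end Invertible

/-! ## The charts of a curve -/

section Charts

variable {k : Type u} [Field k] (𝔠 : CurveCharts k)

section Restrict

variable {A : Type*} [CommRing A] [Algebra k A]

/-- restriction of a point of `W₁ ∩ W₂` to `W₁` -/
noncomputable def restr₁ (r : 𝔠.B₁₂ →ₐ[k] A) : 𝔠.B₁ →ₐ[k] A :=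
  r.comp (IsScalarTower.toAlgHom k 𝔠.B₁ 𝔠.B₁₂)

/-- restriction of a point of `W₁ ∩ W₂` to `W₂` -/
noncomputable def restr₂ (r : 𝔠.B₁₂ →ₐ[k] A) : 𝔠.B₂ →ₐ[k] A :=
  r.comp (IsScalarTower.toAlgHom k 𝔠.B₂ 𝔠.B₁₂)

@[simp] theorem restr₁_apply (r : 𝔠.B₁₂ →ₐ[k] A) (b : 𝔠.B₁) :
    restr₁ 𝔠 r b = r (algebraMap 𝔠.B₁ 𝔠.B₁₂ b) := rfl

@[simp] theorem restr₂_apply (r : 𝔠.B₁₂ →ₐ[k] A) (b : 𝔠.B₂) :
    restr₂ 𝔠 r b = r (algebraMap 𝔠.B₂ 𝔠.B₁₂ b) := rfl

theorem restr₁_x_mul_restr₂_y (r : 𝔠.B₁₂ →ₐ[k] A) : restr₁ 𝔠 r 𝔠.x * restr₂ 𝔠 r 𝔠.y = 1 := by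
  rw [restr₁_apply, restr₂_apply, ← map_mul, 𝔠.xy, map_one]

theorem restr₁_injective : Function.Injective (restr₁ 𝔠 (A := A)) := by
  intro r r' h
  have := 𝔠.away₁
  apply AlgHom.coe_ringHom_injective
  apply IsLocalization.ringHom_ext (Submonoid.powers 𝔠.x)
  ext b
  exact congrArg (fun f : 𝔠.B₁ →ₐ[k] A => f b) h

theorem restr₂_injective : Function.Injective (restr₂ 𝔠 (A := A)) := by
  intro r r' h
  have := 𝔠.away₂
  apply AlgHom.coe_ringHom_injective
  apply IsLocalization.ringHom_ext (Submonoid.powers 𝔠.y)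
  ext b
  exact congrArg (fun f : 𝔠.B₂ →ₐ[k] A => f b) h

/-- a point of `W₁` at which `x` is invertible is a point of `W₁ ∩ W₂`. -/
theorem exists_restr₁_eq (r : 𝔠.B₁ →ₐ[k] A) (h : IsUnit (r 𝔠.x)) :
    ∃ r' : 𝔠.B₁₂ →ₐ[k] A, restr₁ 𝔠 r' = r := by
  have := 𝔠.away₁
  have hu : ∀ y : Submonoid.powers 𝔠.x, IsUnit (r y) := by
    rintro ⟨_, n, rfl⟩
    simpa using h.pow n
  refine ⟨IsLocalization.liftAlgHom (M := Submonoid.powers 𝔠.x) (f := r) hu, ?_⟩
  ext b
  simp

/-- a point of `W₂` at which `y` is invertible is a point of `W₁ ∩ W₂`. -/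
theorem exists_restr₂_eq (r : 𝔠.B₂ →ₐ[k] A) (h : IsUnit (r 𝔠.y)) :
    ∃ r' : 𝔠.B₁₂ →ₐ[k] A, restr₂ 𝔠 r' = r := by
  have := 𝔠.away₂
  have hu : ∀ y : Submonoid.powers 𝔠.y, IsUnit (r y) := by
    rintro ⟨_, n, rfl⟩
    simpa using h.pow n
  refine ⟨IsLocalization.liftAlgHom (M := Submonoid.powers 𝔠.y) (f := r) hu, ?_⟩
  ext b
  simp

/-- (4) the ideal of a point of `W₁ ∩ W₂` is the extension of its ideal in `W₁`. -/
theorem map_ker_restr₁ (r : 𝔠.B₁₂ →ₐ[k] A) :
    (RingHom.ker (restr₁ 𝔠 r)).map (algebraMap 𝔠.B₁ 𝔠.B₁₂) = RingHom.ker r := by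
  have := 𝔠.away₁
  have h : RingHom.ker (restr₁ 𝔠 r) = (RingHom.ker r).comap (algebraMap 𝔠.B₁ 𝔠.B₁₂) := by
    ext b
    simp [RingHom.mem_ker]
  rw [h]
  exact IsLocalization.map_under (Submonoid.powers 𝔠.x) 𝔠.B₁₂ _

/-- (4) the ideal of a point of `W₁ ∩ W₂` is the extension of its ideal in `W₂`. -/
theorem map_ker_restr₂ (r : 𝔠.B₁₂ →ₐ[k] A) :
    (RingHom.ker (restr₂ 𝔠 r)).map (algebraMap 𝔠.B₂ 𝔠.B₁₂) = RingHom.ker r := by
  have := 𝔠.away₂
  have h : RingHom.ker (restr₂ 𝔠 r) = (RingHom.ker r).comap (algebraMap 𝔠.B₂ 𝔠.B₁₂) := by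
    ext b
    simp [RingHom.mem_ker]
  rw [h]
  exact IsLocalization.map_under (Submonoid.powers 𝔠.y) 𝔠.B₁₂ _

end Restrict

/-- `B₁ → B₁₂` is injective -/
theorem algebraMap₁_injective : Function.Injective (algebraMap 𝔠.B₁ 𝔠.B₁₂) := by
  have := 𝔠.away₁
  have hx0 : 𝔠.x ≠ 0 := by
    intro h
    exact 𝔠.trans₁ (h ▸ isAlgebraic_zero)
  exact IsLocalization.injective 𝔠.B₁₂ (powers_le_nonZeroDivisors_of_noZeroDivisors hx0)

/-- `y ≠ 0` -/
theorem y_ne_zero : 𝔠.y ≠ 0 := by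
  intro h
  have h1 := 𝔠.xy
  rw [h, map_zero, mul_zero] at h1
  have hsub : Subsingleton 𝔠.B₁₂ := subsingleton_of_zero_eq_one h1
  have : (1 : 𝔠.B₁) = 0 := algebraMap₁_injective 𝔠 (Subsingleton.elim _ _)
  exact one_ne_zero this

/-- `B₂ → B₁₂` is injective -/
theorem algebraMap₂_injective : Function.Injective (algebraMap 𝔠.B₂ 𝔠.B₁₂) := by
  have := 𝔠.away₂
  exact IsLocalization.injective 𝔠.B₁₂
    (powers_le_nonZeroDivisors_of_noZeroDivisors (y_ne_zero 𝔠))

/-- `B₁₂` is a domain -/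
theorem isDomain₁₂ : IsDomain 𝔠.B₁₂ := by
  have := 𝔠.away₁
  have hx0 : 𝔠.x ≠ 0 := by
    intro h
    exact 𝔠.trans₁ (h ▸ isAlgebraic_zero)
  exact IsLocalization.isDomain_of_le_nonZeroDivisors (M := Submonoid.powers 𝔠.x) 𝔠.B₁₂
    (powers_le_nonZeroDivisors_of_noZeroDivisors hx0)

/-- every value of `x` is taken at a `k`-point of `W₁`. -/
theorem exists_point₁ [IsAlgClosed k] (c : k) : ∃ r : 𝔠.B₁ →ₐ[k] k, r 𝔠.x = c :=
  exists_algHom_apply_eq 𝔠.x 𝔠.fin₁ 𝔠.trans₁ c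

/-- every nonzero value of `x` is taken at a `k`-point of `W₁ ∩ W₂`. -/
theorem exists_point₁₂ [IsAlgClosed k] (c : k) (hc : c ≠ 0) :
    ∃ r : 𝔠.B₁₂ →ₐ[k] k, r (algebraMap 𝔠.B₁ 𝔠.B₁₂ 𝔠.x) = c := by
  obtain ⟨r, hr⟩ := exists_point₁ 𝔠 c
  obtain ⟨r', hr'⟩ := exists_restr₁_eq 𝔠 r (by rw [hr]; exact hc.isUnit)
  exact ⟨r', by rw [← restr₁_apply, hr', hr]⟩

/-- (1) `W₁ ∩ W₂` has infinitely many `k`-points. -/
theorem infinite_points₁₂ [IsAlgClosed k] : Infinite (𝔠.B₁₂ →ₐ[k] k) := by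
  have hk : Infinite k := IsAlgClosed.instInfinite
  have hinf : Infinite {c : k // c ≠ 0} :=
    ((Set.finite_singleton (0 : k)).infinite_compl).to_subtype
  choose f hf using fun c : {c : k // c ≠ 0} => exists_point₁₂ 𝔠 (c : k) c.2
  refine Infinite.of_injective f ?_
  intro c c' h
  apply Subtype.ext
  rw [← hf c, ← hf c', h]

section Field

variable {K : Type*} [Field K] [Algebra k K]

/-- `x` is not constant, so the ideal of a `k`-point of `W₁` is nonzero. -/
theorem ker_point₁_ne_bot (r : 𝔠.B₁ →ₐ[k] k) : RingHom.ker r ≠ ⊥ := by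
  intro h
  have h1 : 𝔠.x - algebraMap k 𝔠.B₁ (r 𝔠.x) ∈ RingHom.ker r := by
    rw [RingHom.mem_ker, map_sub, AlgHom.commutes]
    simp
  rw [h, Ideal.mem_bot, sub_eq_zero] at h1
  exact 𝔠.trans₁ (h1 ▸ isAlgebraic_algebraMap _)

/-- `y` is not constant, so the ideal of a `k`-point of `W₂` is nonzero. -/
theorem ker_point₂_ne_bot (r : 𝔠.B₂ →ₐ[k] k) : RingHom.ker r ≠ ⊥ := by
  intro h
  have h1 : 𝔠.y - algebraMap k 𝔠.B₂ (r 𝔠.y) ∈ RingHom.ker r := by
    rw [RingHom.mem_ker, map_sub, AlgHom.commutes]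
    simp
  rw [h, Ideal.mem_bot, sub_eq_zero] at h1
  set c := r 𝔠.y with hc
  have h2 := 𝔠.xy
  rw [h1, ← IsScalarTower.algebraMap_apply, IsScalarTower.algebraMap_apply k 𝔠.B₁ 𝔠.B₁₂,
    ← map_mul] at h2
  have h3 : 𝔠.x * algebraMap k 𝔠.B₁ c = 1 := algebraMap₁_injective 𝔠 (by rw [h2, map_one])
  have hc0 : c ≠ 0 := by
    intro h0
    rw [h0, map_zero, mul_zero] at h3
    exact zero_ne_one h3
  have h4 : 𝔠.x = algebraMap k 𝔠.B₁ c⁻¹ := by
    have : algebraMap k 𝔠.B₁ c * algebraMap k 𝔠.B₁ c⁻¹ = 1 := by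
      rw [← map_mul, mul_inv_cancel₀ hc0, map_one]
    calc 𝔠.x = 𝔠.x * (algebraMap k 𝔠.B₁ c * algebraMap k 𝔠.B₁ c⁻¹) := by rw [this, mul_one]
      _ = algebraMap k 𝔠.B₁ c⁻¹ := by rw [← mul_assoc, h3, one_mul]
  exact 𝔠.trans₁ (h4 ▸ isAlgebraic_algebraMap _)

theorem ker_point₁₂_ne_bot (r : 𝔠.B₁₂ →ₐ[k] k) : RingHom.ker r ≠ ⊥ := by
  intro h
  have h1 := map_ker_restr₁ 𝔠 r
  rw [h, Ideal.map_eq_bot_iff_of_injective (algebraMap₁_injective 𝔠)] at h1
  exact ker_point₁_ne_bot 𝔠 _ h1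

/-- (4) the ideal of a `k`-point of `W₁` is an invertible module. -/
theorem invertible_ker_point₁ [IsDedekindDomain 𝔠.B₁] (r : 𝔠.B₁ →ₐ[k] k) :
    Module.Invertible 𝔠.B₁ (RingHom.ker r) :=
  invertible_of_ne_bot _ (ker_point₁_ne_bot 𝔠 r)

/-- (4) the ideal of a `k`-point of `W₂` is an invertible module. -/
theorem invertible_ker_point₂ [IsDedekindDomain 𝔠.B₂] (r : 𝔠.B₂ →ₐ[k] k) :
    Module.Invertible 𝔠.B₂ (RingHom.ker r) :=
  invertible_of_ne_bot _ (ker_point₂_ne_bot 𝔠 r)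

/-- `B₁₂` is a Dedekind domain. -/
theorem isDedekindDomain₁₂ [IsDedekindDomain 𝔠.B₁] : IsDedekindDomain 𝔠.B₁₂ := by
  have := 𝔠.away₁
  have := isDomain₁₂ 𝔠
  have hx0 : 𝔠.x ≠ 0 := by
    intro h
    exact 𝔠.trans₁ (h ▸ isAlgebraic_zero)
  exact IsLocalization.isDedekindDomain 𝔠.B₁
    (powers_le_nonZeroDivisors_of_noZeroDivisors hx0) 𝔠.B₁₂

/-- (4) the ideal of a `k`-point of `W₁ ∩ W₂` is an invertible module. -/
theorem invertible_ker_point₁₂ [IsDedekindDomain 𝔠.B₁] (r : 𝔠.B₁₂ →ₐ[k] k) :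
    Module.Invertible 𝔠.B₁₂ (RingHom.ker r) :=
  have := isDedekindDomain₁₂ 𝔠
  invertible_of_ne_bot _ (ker_point₁₂_ne_bot 𝔠 r)

end Field

section Family

variable (A : Type u) [CommRing A] [Algebra k A]

@[simp] theorem res₁_tmul (a : A) (b : 𝔠.B₁) :
    𝔠.res₁ A (a ⊗ₜ[k] b) = a ⊗ₜ[k] algebraMap 𝔠.B₁ 𝔠.B₁₂ b := by
  simp [CurveCharts.res₁]

@[simp] theorem res₂_tmul (a : A) (b : 𝔠.B₂) :
    𝔠.res₂ A (a ⊗ₜ[k] b) = a ⊗ₜ[k] algebraMap 𝔠.B₂ 𝔠.B₁₂ b := by
  simp [CurveCharts.res₂]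

theorem res₁_xA_mul_res₂_yA : 𝔠.res₁ A (𝔠.xA A) * 𝔠.res₂ A (𝔠.yA A) = 1 := by
  rw [CurveCharts.xA, CurveCharts.yA, res₁_tmul, res₂_tmul, Algebra.TensorProduct.tmul_mul_tmul,
    𝔠.xy, mul_one, Algebra.TensorProduct.one_def]

/-- clearing denominators: `R₁₂ A = (R₁ A)[1/x]`. -/
theorem exists_res₁_eq (z : 𝔠.R₁₂ A) :
    ∃ (n : ℕ) (w : 𝔠.R₁ A), 𝔠.res₁ A w = (𝔠.res₁ A (𝔠.xA A)) ^ n * z := by
  have := 𝔠.away₁
  induction z using TensorProduct.induction_on with
  | zero => exact ⟨0, 0, by simp⟩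
  | tmul a b =>
    obtain ⟨n, b', hb'⟩ := IsLocalization.Away.surj 𝔠.x b
    refine ⟨n, a ⊗ₜ b', ?_⟩
    rw [res₁_tmul, ← hb', CurveCharts.xA, res₁_tmul, Algebra.TensorProduct.tmul_pow, one_pow,
      Algebra.TensorProduct.tmul_mul_tmul, one_mul, mul_comm]
  | add z₁ z₂ h₁ h₂ =>
    obtain ⟨n₁, w₁, h₁⟩ := h₁
    obtain ⟨n₂, w₂, h₂⟩ := h₂
    refine ⟨n₁ + n₂, (𝔠.xA A) ^ n₂ * w₁ + (𝔠.xA A) ^ n₁ * w₂, ?_⟩
    rw [map_add, map_mul, map_mul, map_pow, map_pow, h₁, h₂]
    ring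

/-- clearing denominators: `R₁₂ A = (R₂ A)[1/y]`. -/
theorem exists_res₂_eq (z : 𝔠.R₁₂ A) :
    ∃ (n : ℕ) (w : 𝔠.R₂ A), 𝔠.res₂ A w = (𝔠.res₂ A (𝔠.yA A)) ^ n * z := by
  have := 𝔠.away₂
  induction z using TensorProduct.induction_on with
  | zero => exact ⟨0, 0, by simp⟩
  | tmul a b =>
    obtain ⟨n, b', hb'⟩ := IsLocalization.Away.surj 𝔠.y b
    refine ⟨n, a ⊗ₜ b', ?_⟩
    rw [res₂_tmul, ← hb', CurveCharts.yA, res₂_tmul, Algebra.TensorProduct.tmul_pow, one_pow,
      Algebra.TensorProduct.tmul_mul_tmul, one_mul, mul_comm]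
  | add z₁ z₂ h₁ h₂ =>
    obtain ⟨n₁, w₁, h₁⟩ := h₁
    obtain ⟨n₂, w₂, h₂⟩ := h₂
    refine ⟨n₁ + n₂, (𝔠.yA A) ^ n₂ * w₁ + (𝔠.yA A) ^ n₁ * w₂, ?_⟩
    rw [map_add, map_mul, map_mul, map_pow, map_pow, h₁, h₂]
    ring

variable {A}

theorem ofPoint_res₁ (r : 𝔠.B₁₂ →ₐ[k] A) (w : 𝔠.R₁ A) :
    ofPoint r (𝔠.res₁ A w) = ofPoint (restr₁ 𝔠 r) w := by
  induction w using TensorProduct.induction_on with
  | zero => simp
  | tmul a b => simp
  | add w₁ w₂ h₁ h₂ => rw [map_add, map_add, map_add, h₁, h₂]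

theorem ofPoint_res₂ (r : 𝔠.B₁₂ →ₐ[k] A) (w : 𝔠.R₂ A) :
    ofPoint r (𝔠.res₂ A w) = ofPoint (restr₂ 𝔠 r) w := by
  induction w using TensorProduct.induction_on with
  | zero => simp
  | tmul a b => simp
  | add w₁ w₂ h₁ h₂ => rw [map_add, map_add, map_add, h₁, h₂]

/-- (4), in families: the ideal of an `A`-valued point (a section of `(W₁ ∩ W₂) × Spec A`) is the
extension of the ideal of the section of `W₁ × Spec A`. -/
theorem map_ker_ofPoint_restr₁ (r : 𝔠.B₁₂ →ₐ[k] A) :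
    (RingHom.ker (ofPoint (restr₁ 𝔠 r))).map (𝔠.res₁ A) = RingHom.ker (ofPoint r) := by
  apply le_antisymm
  · rw [Ideal.map_le_iff_le_comap]
    intro w hw
    rw [Ideal.mem_comap, RingHom.mem_ker, ofPoint_res₁]
    exact hw
  · intro z hz
    obtain ⟨n, w, hw⟩ := exists_res₁_eq 𝔠 A z
    have hw0 : w ∈ RingHom.ker (ofPoint (restr₁ 𝔠 r)) := by
      rw [RingHom.mem_ker, ← ofPoint_res₁, hw, map_mul, (RingHom.mem_ker).mp hz, mul_zero]
    have hz' : z = (𝔠.res₂ A (𝔠.yA A)) ^ n * 𝔠.res₁ A w := by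
      rw [hw, ← mul_assoc, ← mul_pow, mul_comm (𝔠.res₂ A _), res₁_xA_mul_res₂_yA, one_pow, one_mul]
    rw [hz']
    exact Ideal.mul_mem_left _ _ (Ideal.mem_map_of_mem _ hw0)

/-- (4), in families, for `W₂`. -/
theorem map_ker_ofPoint_restr₂ (r : 𝔠.B₁₂ →ₐ[k] A) :
    (RingHom.ker (ofPoint (restr₂ 𝔠 r))).map (𝔠.res₂ A) = RingHom.ker (ofPoint r) := by
  apply le_antisymm
  · rw [Ideal.map_le_iff_le_comap]
    intro w hw
    rw [Ideal.mem_comap, RingHom.mem_ker, ofPoint_res₂]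
    exact hw
  · intro z hz
    obtain ⟨n, w, hw⟩ := exists_res₂_eq 𝔠 A z
    have hw0 : w ∈ RingHom.ker (ofPoint (restr₂ 𝔠 r)) := by
      rw [RingHom.mem_ker, ← ofPoint_res₂, hw, map_mul, (RingHom.mem_ker).mp hz, mul_zero]
    have hz' : z = (𝔠.res₁ A (𝔠.xA A)) ^ n * 𝔠.res₂ A w := by
      rw [hw, ← mul_assoc, ← mul_pow, res₁_xA_mul_res₂_yA, one_pow, one_mul]
    rw [hz']
    exact Ideal.mul_mem_left _ _ (Ideal.mem_map_of_mem _ hw0)

end Family

section Factor

/-- `y` is transcendental -/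
theorem trans₂ : Transcendental k 𝔠.y := by
  intro hy
  have := isDomain₁₂ 𝔠
  let L := FractionRing 𝔠.B₁₂
  have h1 : IsAlgebraic k (algebraMap 𝔠.B₁₂ L (algebraMap 𝔠.B₂ 𝔠.B₁₂ 𝔠.y)) :=
    (hy.algebraMap (A := 𝔠.B₁₂)).algebraMap (A := L)
  have h2 : algebraMap 𝔠.B₁₂ L (algebraMap 𝔠.B₁ 𝔠.B₁₂ 𝔠.x) =
      (algebraMap 𝔠.B₁₂ L (algebraMap 𝔠.B₂ 𝔠.B₁₂ 𝔠.y))⁻¹ := by
    apply eq_inv_of_mul_eq_one_left
    rw [← map_mul, 𝔠.xy, map_one]
  have h3 : IsAlgebraic k (algebraMap 𝔠.B₁₂ L (algebraMap 𝔠.B₁ 𝔠.B₁₂ 𝔠.x)) := by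
    rw [h2]
    exact IsAlgebraic.inv_iff.mpr h1
  have h4 : IsAlgebraic k (algebraMap 𝔠.B₁ 𝔠.B₁₂ 𝔠.x) :=
    (isAlgebraic_algebraMap_iff (IsFractionRing.injective 𝔠.B₁₂ L)).mp h3
  exact 𝔠.trans₁ ((isAlgebraic_algebraMap_iff (algebraMap₁_injective 𝔠)).mp h4)

variable {K : Type u} [Field K] [Algebra k K] [IsAlgClosed K]

/-- (3) an ideal of `K ⊗ B₁` of finite codimension `m` is a product of `m` ideals of
`K`-valued points of `W₁`. -/
theorem exists_points_prod_eq₁ [IsDedekindDomain (𝔠.R₁ K)] (I : Ideal (𝔠.R₁ K))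
    (hfin : Module.Finite K (𝔠.R₁ K ⧸ I)) :
    ∃ s : Multiset (𝔠.B₁ →ₐ[k] K), (s.map fun r => RingHom.ker (ofPoint r)).prod = I ∧
      s.card = Module.finrank K (𝔠.R₁ K ⧸ I) := by
  have hft : Algebra.FiniteType k 𝔠.B₁ := inferInstance
  obtain ⟨s, hs, -, -, hcard⟩ := exists_points_prod_eq (K := K) I
    (ne_bot_of_finite_quotient 𝔠.trans₁ I hfin)
  refine ⟨s.map toPoint, ?_, by rw [Multiset.card_map, hcard]⟩
  rw [Multiset.map_map, ← hs]
  congr 1
  refine Multiset.map_congr rfl (fun φ _ => ?_)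
  show RingHom.ker (pointEquiv (pointEquiv.symm φ)) = _
  rw [Equiv.apply_symm_apply]

/-- (3) an ideal of `K ⊗ B₂` of finite codimension `m` is a product of `m` ideals of
`K`-valued points of `W₂`. -/
theorem exists_points_prod_eq₂ [IsDedekindDomain (𝔠.R₂ K)] (I : Ideal (𝔠.R₂ K))
    (hfin : Module.Finite K (𝔠.R₂ K ⧸ I)) :
    ∃ s : Multiset (𝔠.B₂ →ₐ[k] K), (s.map fun r => RingHom.ker (ofPoint r)).prod = I ∧
      s.card = Module.finrank K (𝔠.R₂ K ⧸ I) := by
  have hft : Algebra.FiniteType k 𝔠.B₂ := inferInstance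
  obtain ⟨s, hs, -, -, hcard⟩ := exists_points_prod_eq (K := K) I
    (ne_bot_of_finite_quotient (trans₂ 𝔠) I hfin)
  refine ⟨s.map toPoint, ?_, by rw [Multiset.card_map, hcard]⟩
  rw [Multiset.map_map, ← hs]
  congr 1
  refine Multiset.map_congr rfl (fun φ _ => ?_)
  show RingHom.ker (pointEquiv (pointEquiv.symm φ)) = _
  rw [Equiv.apply_symm_apply]

end Factor

end Charts

end Fermat.Agent.S25.Points
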