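/-
S25, task K1 : geometric integrality and the Dedekind property of `K ⊗[k] Bᵢ`.  Owner: helper117.

* `Dedekind.isIntegrallyClosed_of_etale` : a domain which is etale over a normal domain is normal.
* `Dedekind.isIntegrallyClosed_of_smooth` : a domain which is smooth over a field is normal.
* `Dedekind.isDedekindDomain_of_smooth_of_finite` : a domain, smooth over a field `K` and finite
  over `K[x]`, is a Dedekind domain.
* `CurveCharts.isDomain_R₁` etc. : the corollaries for curve charts.
-/
import Fermat.Agent.S25.Core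
import Fermat.Agent.S27.H.TensorDomain

set_option autoImplicit false

universe u

open scoped TensorProduct nonZeroDivisors Polynomial

namespace Fermat.Agent.S25

namespace Dedekind

section Etale

variable (R T : Type*) [CommRing R] [IsDomain R] [CommRing T] [IsDomain T]
  [Algebra R T] [Algebra.Etale R T]

theorem algebraMap_injective_of_etale : Function.Injective (algebraMap R T) := by
  rw [injective_iff_map_eq_zero]
  intro r hr
  by_contra hr0
  have hinj : Function.Injective (fun t : T => r • t) := by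
    have : Module.IsTorsionFree R T := inferInstance
    exact smul_right_injective T hr0
  have h1 : r • (1 : T) = r • (0 : T) := by
    rw [Algebra.smul_def, hr, zero_mul, smul_zero]
  exact one_ne_zero (hinj h1)

theorem algebraMapSubmonoid_le : Algebra.algebraMapSubmonoid T R⁰ ≤ T⁰ := by
  rintro _ ⟨r, hr, rfl⟩
  have hr' : r ≠ 0 := mem_nonZeroDivisors_iff_ne_zero.mp hr
  rw [mem_nonZeroDivisors_iff_ne_zero]
  exact (map_ne_zero_iff _ (algebraMap_injective_of_etale R T)).mpr hr'

theorem isDomain_tensor_fractionRing : IsDomain (T ⊗[R] FractionRing R) :=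
  IsLocalization.isDomain_of_le_nonZeroDivisors (M := Algebra.algebraMapSubmonoid T R⁰) _
    (algebraMapSubmonoid_le R T)

theorem isField_tensor_fractionRing : IsField (T ⊗[R] FractionRing R) := by
  have hdom := isDomain_tensor_fractionRing R T
  have h1 : Algebra.Etale (FractionRing R) (FractionRing R ⊗[R] T) := inferInstance
  have h2 : Module.Finite (FractionRing R) (FractionRing R ⊗[R] T) :=
    Algebra.FormallyUnramified.finite_of_free _ _
  have hdom' : IsDomain (FractionRing R ⊗[R] T) :=
    (Algebra.TensorProduct.comm R (FractionRing R) T).toRingEquiv.toMulEquiv.isDomain _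
  have h3 : IsField (FractionRing R ⊗[R] T) :=
    isField_of_isIntegral_of_isField' (R := FractionRing R) (Field.toIsField _)
  exact (Algebra.TensorProduct.comm R T (FractionRing R)).toRingEquiv.toMulEquiv.isField h3

theorem isFractionRing_tensor_fractionRing : IsFractionRing T (T ⊗[R] FractionRing R) := by
  have hf := isField_tensor_fractionRing R T
  have hdom := isDomain_tensor_fractionRing R T
  refine IsLocalization.of_le (Algebra.algebraMapSubmonoid T R⁰) T⁰ (algebraMapSubmonoid_le R T) ?_
  intro t ht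
  have hinj : Function.Injective (algebraMap T (T ⊗[R] FractionRing R)) :=
    IsLocalization.injective _ (algebraMapSubmonoid_le R T)
  have hne : algebraMap T (T ⊗[R] FractionRing R) t ≠ 0 :=
    (map_ne_zero_iff _ hinj).mpr (mem_nonZeroDivisors_iff_ne_zero.mp ht)
  obtain ⟨b, hb⟩ := hf.mul_inv_cancel hne
  exact IsUnit.of_mul_eq_one b hb

/-- A domain which is etale over a normal domain is normal. -/
theorem isIntegrallyClosed_of_etale [IsIntegrallyClosed R] : IsIntegrallyClosed T := by
  have hfr := isFractionRing_tensor_fractionRing R T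
  rw [isIntegrallyClosed_iff (T ⊗[R] FractionRing R)]
  intro x hx
  obtain ⟨z, hz⟩ := (TensorProduct.toIntegralClosure_bijective_of_smooth (R := R) (S := T)
    (B := FractionRing R)).2 ⟨x, hx⟩
  have key : ∀ z : T ⊗[R] integralClosure R (FractionRing R),
      ∃ y : T, algebraMap T (T ⊗[R] FractionRing R) y =
        (TensorProduct.toIntegralClosure R T (FractionRing R) z).1 := by
    intro z
    induction z using TensorProduct.induction_on with
    | zero => exact ⟨0, by simp⟩
    | tmul t q =>
      have hq : (q : FractionRing R) ∈ (⊥ : Subalgebra R (FractionRing R)) := by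
        rw [← IsIntegrallyClosed.integralClosure_eq_bot R (FractionRing R)]
        exact q.2
      obtain ⟨r, hr⟩ := Algebra.mem_bot.mp hq
      refine ⟨r • t, ?_⟩
      have : (TensorProduct.toIntegralClosure R T (FractionRing R) (t ⊗ₜ q)).1 =
          t ⊗ₜ[R] (q : FractionRing R) := by
        simp [TensorProduct.toIntegralClosure]
      rw [this, ← hr, Algebra.TensorProduct.algebraMap_apply, Algebra.algebraMap_self,
        RingHom.id_apply, Algebra.algebraMap_eq_smul_one, TensorProduct.tmul_smul,
        TensorProduct.smul_tmul']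
    | add a b ha hb =>
      obtain ⟨y₁, h₁⟩ := ha
      obtain ⟨y₂, h₂⟩ := hb
      exact ⟨y₁ + y₂, by rw [map_add, map_add, h₁, h₂]; rfl⟩
  obtain ⟨y, hy⟩ := key z
  exact ⟨y, by rw [hy, hz]⟩

end Etale

section Smooth

/-- A domain which is smooth over a field is normal. -/
theorem isIntegrallyClosed_of_smooth (K S : Type*) [Field K] [CommRing S] [IsDomain S]
    [Algebra K S] [Algebra.Smooth K S] : IsIntegrallyClosed S := by
  apply IsIntegrallyClosed.of_localization_maximal
  intro p _ hpmax
  obtain ⟨f, hfp, n, _, _, _⟩ :=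
    Algebra.IsSmoothAt.exists_isStandardEtale_mvPolynomial (R := K) (p := p)
  have hf0 : f ≠ 0 := fun h => hfp (h ▸ p.zero_mem)
  have hle0 : Submonoid.powers f ≤ S⁰ := powers_le_nonZeroDivisors_of_noZeroDivisors hf0
  have hdom : IsDomain (Localization.Away f) := IsLocalization.isDomain_localization hle0
  have h1 : IsIntegrallyClosed (Localization.Away f) :=
    isIntegrallyClosed_of_etale (MvPolynomial (Fin n) K) _
  have hle : Submonoid.powers f ≤ p.primeCompl := by
    rintro _ ⟨m, rfl⟩
    exact fun h => hfp (Ideal.IsPrime.mem_of_pow_mem inferInstance m h)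
  let _ : Algebra (Localization.Away f) (Localization.AtPrime p) :=
    IsLocalization.localizationAlgebraOfSubmonoidLe _ _ (Submonoid.powers f) p.primeCompl hle
  have : IsScalarTower S (Localization.Away f) (Localization.AtPrime p) :=
    IsLocalization.localization_isScalarTower_of_submonoid_le _ _ (Submonoid.powers f)
      p.primeCompl hle
  have : IsLocalization (p.primeCompl.map (algebraMap S (Localization.Away f)))
      (Localization.AtPrime p) :=
    IsLocalization.isLocalization_of_submonoid_le _ _ (Submonoid.powers f) p.primeCompl hle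
  refine isIntegrallyClosed_of_isLocalization (R := Localization.Away f) _
    (p.primeCompl.map (algebraMap S (Localization.Away f))) ?_
  rintro _ ⟨s, hs, rfl⟩
  rw [mem_nonZeroDivisors_iff_ne_zero]
  have hs0 : s ≠ 0 := fun h => hs (h ▸ p.zero_mem)
  exact (map_ne_zero_iff _ (IsLocalization.injective _ hle0)).mpr hs0

/-- A domain which is finite over `K[x]` has dimension at most one. -/
theorem dimensionLEOne_of_finite (K S : Type*) [Field K] [CommRing S] [IsDomain S]
    [Algebra K S] (x : S) (hx : (Polynomial.aeval (R := K) x).toRingHom.Finite) :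
    Ring.DimensionLEOne S := by
  let _ : Algebra K[X] S := (Polynomial.aeval (R := K) x).toRingHom.toAlgebra
  have hfin : Module.Finite K[X] S := hx
  have hint : Algebra.IsIntegral K[X] S := inferInstance
  refine ⟨fun {p} hp0 hp => ?_⟩
  obtain ⟨s, hs, hs0⟩ := Submodule.exists_mem_ne_zero_of_ne_bot hp0
  have h1 : p.comap (algebraMap K[X] S) ≠ ⊥ :=
    Ideal.comap_ne_bot_of_integral_mem hs0 hs (Algebra.IsIntegral.isIntegral s)
  have h2 : (p.comap (algebraMap K[X] S)).IsPrime := Ideal.comap_isPrime _ _
  have h3 : (p.comap (algebraMap K[X] S)).IsMaximal := h2.isMaximal h1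
  exact Ideal.isMaximal_of_isIntegral_of_isMaximal_comap p h3

/-- A domain, smooth over a field `K` and finite over `K[x]`, is a Dedekind domain. -/
theorem isDedekindDomain_of_smooth_of_finite (K S : Type*) [Field K] [CommRing S] [IsDomain S]
    [Algebra K S] [Algebra.Smooth K S] (x : S)
    (hx : (Polynomial.aeval (R := K) x).toRingHom.Finite) : IsDedekindDomain S := by
  have h1 : IsNoetherianRing S := Algebra.FiniteType.isNoetherianRing K S
  have h2 : Ring.DimensionLEOne S := dimensionLEOne_of_finite K S x hx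
  have h3 : IsIntegrallyClosed S := isIntegrallyClosed_of_smooth K S
  exact { }

end Smooth

section BaseChange

variable (k K B : Type*) [Field k] [Field K] [Algebra k K] [CommRing B] [Algebra k B]

/-- Finiteness over `k[x]` is stable under extension of the base field. -/
theorem finite_aeval_baseChange (x : B) (h : (Polynomial.aeval (R := k) x).toRingHom.Finite) :
    (Polynomial.aeval (R := K) ((1 : K) ⊗ₜ[k] x)).toRingHom.Finite := by
  classical
  -- an explicit form of the hypothesis
  obtain ⟨s, hs⟩ : ∃ s : Finset B, ∀ b : B, ∃ c : B → k[X],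
      b = ∑ i ∈ s, Polynomial.aeval x (c i) * i := by
    let _ : Algebra k[X] B := (Polynomial.aeval (R := k) x).toRingHom.toAlgebra
    have hfin : Module.Finite k[X] B := h
    obtain ⟨s, hs⟩ := hfin.fg_top
    refine ⟨s, fun b => ?_⟩
    have hb : b ∈ Submodule.span k[X] (s : Set B) := by rw [hs]; trivial
    obtain ⟨c, -, hc⟩ := Submodule.mem_span_finset.mp hb
    refine ⟨c, ?_⟩
    rw [← hc]
    rfl
  let _ : Algebra K[X] (K ⊗[k] B) :=
    (Polynomial.aeval (R := K) ((1 : K) ⊗ₜ[k] x)).toRingHom.toAlgebra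
  have hsmul : ∀ (p : K[X]) (z : K ⊗[k] B),
      p • z = Polynomial.aeval ((1 : K) ⊗ₜ[k] x) p * z := fun _ _ => rfl
  have haeval : ∀ p : k[X], Polynomial.aeval ((1 : K) ⊗ₜ[k] x) (p.map (algebraMap k K)) =
      (1 : K) ⊗ₜ[k] Polynomial.aeval x p := by
    intro p
    rw [Polynomial.aeval_map_algebraMap]
    exact Polynomial.aeval_algHom_apply
      (Algebra.TensorProduct.includeRight : B →ₐ[k] K ⊗[k] B) x p
  show Module.Finite K[X] (K ⊗[k] B)
  refine ⟨⟨s.image (fun b => (1 : K) ⊗ₜ[k] b), ?_⟩⟩
  rw [eq_top_iff]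
  intro z _
  induction z using TensorProduct.induction_on with
  | zero => exact zero_mem _
  | add a b ha hb => exact add_mem (ha trivial) (hb trivial)
  | tmul a b =>
    obtain ⟨c, hc⟩ := hs b
    rw [hc, TensorProduct.tmul_sum]
    refine sum_mem fun i hi => ?_
    have h1 : a ⊗ₜ[k] (Polynomial.aeval x (c i) * i) =
        (Polynomial.C a * (c i).map (algebraMap k K)) • ((1 : K) ⊗ₜ[k] i) := by
      rw [hsmul, map_mul, haeval, Polynomial.aeval_C, Algebra.TensorProduct.algebraMap_apply,
        Algebra.TensorProduct.tmul_mul_tmul, Algebra.TensorProduct.tmul_mul_tmul]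
      simp
    rw [h1]
    refine Submodule.smul_mem _ _ (Submodule.subset_span ?_)
    exact Finset.mem_coe.mpr (Finset.mem_image_of_mem _ hi)

end BaseChange

end Dedekind

namespace CurveCharts

variable {k : Type u} [Field k] [IsAlgClosed k] (𝔠 : CurveCharts k)

omit [IsAlgClosed k] in
theorem x_ne_zero : 𝔠.x ≠ 0 := fun h => 𝔠.trans₁ (h ▸ isAlgebraic_zero)

omit [IsAlgClosed k] in
theorem isDomain_B₁₂ : IsDomain 𝔠.B₁₂ :=
  haveI := 𝔠.away₁
  IsLocalization.isDomain_of_le_nonZeroDivisors (M := Submonoid.powers 𝔠.x) _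
    (powers_le_nonZeroDivisors_of_noZeroDivisors 𝔠.x_ne_zero)

/-- geometric integrality, over a domain `A` -/
theorem isDomain_R₁_of_isDomain (A : Type u) [CommRing A] [IsDomain A] [Algebra k A] :
    IsDomain (𝔠.R₁ A) :=
  Fermat.Agent.S27.H.isDomain_tensorProduct_of_isAlgClosed k A 𝔠.B₁

theorem isDomain_R₂_of_isDomain (A : Type u) [CommRing A] [IsDomain A] [Algebra k A] :
    IsDomain (𝔠.R₂ A) :=
  Fermat.Agent.S27.H.isDomain_tensorProduct_of_isAlgClosed k A 𝔠.B₂

theorem isDomain_R₁₂_of_isDomain (A : Type u) [CommRing A] [IsDomain A] [Algebra k A] :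
    IsDomain (𝔠.R₁₂ A) :=
  haveI := 𝔠.isDomain_B₁₂
  Fermat.Agent.S27.H.isDomain_tensorProduct_of_isAlgClosed k A 𝔠.B₁₂

variable (K : Type u) [Field K] [Algebra k K]

theorem isDomain_R₁ : IsDomain (𝔠.R₁ K) :=
  Fermat.Agent.S27.H.isDomain_tensorProduct_of_isAlgClosed k K 𝔠.B₁

theorem isDomain_R₂ : IsDomain (𝔠.R₂ K) :=
  Fermat.Agent.S27.H.isDomain_tensorProduct_of_isAlgClosed k K 𝔠.B₂

theorem isDomain_R₁₂ : IsDomain (𝔠.R₁₂ K) :=
  haveI := 𝔠.isDomain_B₁₂
  Fermat.Agent.S27.H.isDomain_tensorProduct_of_isAlgClosed k K 𝔠.B₁₂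

omit [IsAlgClosed k] in
theorem finite_xA : (Polynomial.aeval (R := K) (𝔠.xA K)).toRingHom.Finite :=
  Dedekind.finite_aeval_baseChange k K 𝔠.B₁ 𝔠.x 𝔠.fin₁

omit [IsAlgClosed k] in
theorem finite_yA : (Polynomial.aeval (R := K) (𝔠.yA K)).toRingHom.Finite :=
  Dedekind.finite_aeval_baseChange k K 𝔠.B₂ 𝔠.y 𝔠.fin₂

theorem isDedekindDomain_R₁ : IsDedekindDomain (𝔠.R₁ K) :=
  haveI := 𝔠.isDomain_R₁ K
  Dedekind.isDedekindDomain_of_smooth_of_finite K (𝔠.R₁ K) (𝔠.xA K) (𝔠.finite_xA K)

theorem isDedekindDomain_R₂ : IsDedekindDomain (𝔠.R₂ K) :=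
  haveI := 𝔠.isDomain_R₂ K
  Dedekind.isDedekindDomain_of_smooth_of_finite K (𝔠.R₂ K) (𝔠.yA K) (𝔠.finite_yA K)

end CurveCharts

end Fermat.Agent.S25
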