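/-
S25, block K (task K4): ideals of a Dedekind domain are locally generated by one of their generators;
the determinant trick.
Owner: helper292.
-/
import Mathlib

set_option autoImplicit false

namespace Fermat.Agent.S25.DedekindLocal

/-- In a Dedekind domain, a nonzero ideal `span S` is generated, near a given prime `P`, by one of
the elements of `S`. -/
theorem exists_mem_mul_mem_span {D : Type*} [CommRing D] [IsDedekindDomain D] (P : Ideal D)
    [hP : P.IsPrime] (S : Set D) (hS : Ideal.span S ≠ ⊥) :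
    ∃ g ∈ S, g ≠ 0 ∧ ∃ t ∉ P, ∀ x ∈ Ideal.span S, t * x ∈ Ideal.span {g} := by
  by_cases hP0 : P = ⊥
  · have : ∃ g ∈ S, g ≠ 0 := by
      by_contra hcon
      push Not at hcon
      apply hS
      rw [Ideal.span_eq_bot]
      exact hcon
    obtain ⟨g, hg, hg0⟩ := this
    refine ⟨g, hg, hg0, g, by rw [hP0]; simpa using hg0, fun x _ => ?_⟩
    exact Ideal.mul_mem_right _ _ (Ideal.mem_span_singleton_self g)
  · have hprime : Prime P := Ideal.prime_of_isPrime hP0 hP
    have hfin : FiniteMultiplicity P (Ideal.span S) :=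
      FiniteMultiplicity.of_prime_left hprime hS
    set n := multiplicity P (Ideal.span S) with hn
    have h1 : P ^ n ∣ Ideal.span S := pow_multiplicity_dvd P (Ideal.span S)
    have h2 : ¬ P ^ (n + 1) ∣ Ideal.span S :=
      hfin.not_pow_dvd_of_multiplicity_lt (Nat.lt_succ_self _)
    -- some generator is not in `P ^ (n + 1)`
    have h3 : ∃ g ∈ S, g ∉ P ^ (n + 1) := by
      by_contra hcon
      push Not at hcon
      apply h2
      rw [Ideal.dvd_iff_le, Ideal.span_le]
      exact hcon
    obtain ⟨g, hgS, hg⟩ := h3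
    have hg0 : g ≠ 0 := fun h => hg (h ▸ Ideal.zero_mem _)
    have hgn : P ^ n ∣ Ideal.span {g} := by
      rw [Ideal.dvd_span_singleton]
      exact (Ideal.dvd_iff_le.mp h1) (Ideal.subset_span hgS)
    obtain ⟨𝔞, h𝔞⟩ := hgn
    have h𝔞P : ¬ 𝔞 ≤ P := by
      intro hle
      apply hg
      rw [← Ideal.dvd_span_singleton, h𝔞, pow_succ]
      exact mul_dvd_mul_left _ (Ideal.dvd_iff_le.mpr hle)
    obtain ⟨t, ht𝔞, htP⟩ := SetLike.not_le_iff_exists.mp h𝔞P
    refine ⟨g, hgS, hg0, t, htP, fun x hx => ?_⟩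
    rw [h𝔞, mul_comm t x]
    exact Ideal.mul_mem_mul ((Ideal.dvd_iff_le.mp h1) hx) ht𝔞

/-- **Determinant trick** (Nakayama).  If `h gⱼ ∈ f R + 𝔟 (g₁, …, g_m)` for all `j`, with `𝔟 ⊆ q`,
`h ∉ q`, `q` prime, then `h' gⱼ ∈ f R` for some `h' ∉ q`. -/
theorem exists_mul_mem_span_singleton {R : Type*} [CommRing R] (q : Ideal R) [hq : q.IsPrime]
    {m : Type*} [Fintype m] [DecidableEq m] (g : m → R) (f h : R) (hh : h ∉ q)
    (C : Matrix m m R) (hC : ∀ i j, C i j ∈ q) (r : m → R)
    (H : ∀ j, h * g j = f * r j + ∑ l, C j l * g l) :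
    ∃ h' ∉ q, ∀ j, ∃ r', h' * g j = f * r' := by
  set M : Matrix m m R := Matrix.scalar m h - C with hM
  have h1 : M.mulVec g = fun j => f * r j := by
    funext j
    have : M.mulVec g j = h * g j - ∑ l, C j l * g l := by
      rw [hM, Matrix.sub_mulVec, Pi.sub_apply, Matrix.scalar_apply, Matrix.mulVec_diagonal]
      rfl
    rw [this, H j]
    ring
  refine ⟨M.det, ?_, fun j => ?_⟩
  · intro hdet
    have h2 : Ideal.Quotient.mk q M.det = (Ideal.Quotient.mk q h) ^ Fintype.card m := by
      rw [RingHom.map_det]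
      have : (Ideal.Quotient.mk q).mapMatrix M = Matrix.scalar m (Ideal.Quotient.mk q h) := by
        ext i j
        simp only [hM, RingHom.mapMatrix_apply, Matrix.map_apply, Matrix.sub_apply, map_sub,
          Ideal.Quotient.eq_zero_iff_mem.mpr (hC i j), sub_zero, Matrix.scalar_apply,
          Matrix.diagonal_apply]
        split_ifs <;> simp
      rw [this, Matrix.scalar_apply, Matrix.det_diagonal, Finset.prod_const, Finset.card_univ]
    rw [Ideal.Quotient.eq_zero_iff_mem.mpr hdet] at h2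
    have h3 : Ideal.Quotient.mk q h = 0 := eq_zero_of_pow_eq_zero h2.symm
    exact hh (Ideal.Quotient.eq_zero_iff_mem.mp h3)
  · have h4 : M.adjugate.mulVec (M.mulVec g) = M.det • g := by
      rw [Matrix.mulVec_mulVec, Matrix.adjugate_mul, Matrix.smul_mulVec, Matrix.one_mulVec]
    rw [h1] at h4
    refine ⟨∑ l, M.adjugate j l * r l, ?_⟩
    have h5 := congrFun h4 j
    rw [Pi.smul_apply, smul_eq_mul] at h5
    rw [← h5, Matrix.mulVec, dotProduct, Finset.mul_sum]
    exact Finset.sum_congr rfl fun l _ => by ring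

end Fermat.Agent.S25.DedekindLocal
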