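/-
S25, block K (task K4): `I ∩ 𝔞 R = 𝔞 I` when `R ⧸ I` is flat over `A`.
Owner: helper292.
-/
import Mathlib

set_option autoImplicit false

namespace Fermat.Agent.S25.FlatInter

variable {A R : Type*} [CommRing A] [CommRing R] [Algebra A R]

theorem smul_mk (I : Ideal R) (a : A) (r : R) :
    a • (Ideal.Quotient.mk I r) = Ideal.Quotient.mk I (algebraMap A R a * r) := by
  rw [← Algebra.smul_def]
  rfl

/-- If `R ⧸ I` is `A`-flat then `I ∩ 𝔞 R ⊆ (𝔞 R) I`. -/
theorem mem_map_mul_of_flat (I : Ideal R) [Module.Flat A (R ⧸ I)] (𝔞 : Ideal A) {w : R}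
    (hwI : w ∈ I) (hw : w ∈ 𝔞.map (algebraMap A R)) : w ∈ 𝔞.map (algebraMap A R) * I := by
  classical
  rw [Ideal.map, Ideal.span, Submodule.mem_span_image_iff_exists_fun] at hw
  obtain ⟨t, ht, c, hc⟩ := hw
  -- the relation `∑ aᵢ [cᵢ] = 0` in `R ⧸ I`
  have hrel : ∑ i : t, (i : A) • (Ideal.Quotient.mk I (c i)) = 0 := by
    have h1 : Ideal.Quotient.mk I w = 0 := Ideal.Quotient.eq_zero_iff_mem.mpr hwI
    rw [← hc, map_sum] at h1
    rw [← h1]
    refine Finset.sum_congr rfl fun i _ => ?_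
    rw [smul_mk, smul_eq_mul, mul_comm]
  have htriv := Module.Flat.isTrivialRelation_of_sum_smul_eq_zero (R := A) (M := R ⧸ I) (ι := t)
    (f := fun i => (i : A)) (x := fun i => Ideal.Quotient.mk I (c i)) hrel
  obtain ⟨l, a, y, hy, ha⟩ := htriv
  have hy' : ∀ i : t, Ideal.Quotient.mk I (c i) = ∑ j, a i j • y j := hy
  have ha' : ∀ j : Fin l, ∑ i : t, (i : A) * a i j = 0 := ha
  have hsurj : ∀ j, ∃ s : R, Ideal.Quotient.mk I s = y j :=
    fun j => Ideal.Quotient.mk_surjective (y j)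
  choose s hs using hsurj
  -- `eᵢ := cᵢ - ∑ⱼ aᵢⱼ sⱼ ∈ I`
  have he : ∀ i : t, c i - ∑ j, algebraMap A R (a i j) * s j ∈ I := by
    intro i
    rw [← Ideal.Quotient.eq_zero_iff_mem, map_sub, hy' i, map_sum, sub_eq_zero]
    refine Finset.sum_congr rfl fun j _ => ?_
    rw [← hs j, smul_mk]
  have h3 : ∑ i : t, algebraMap A R (i : A) * ∑ j, algebraMap A R (a i j) * s j = 0 := by
    simp_rw [Finset.mul_sum]
    rw [Finset.sum_comm]
    refine Finset.sum_eq_zero fun j _ => ?_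
    have := congrArg (algebraMap A R) (ha' j)
    rw [map_sum, map_zero] at this
    have h4 : ∀ i : t, algebraMap A R (i : A) * (algebraMap A R (a i j) * s j) =
        algebraMap A R ((i : A) * a i j) * s j := fun i => by rw [map_mul, mul_assoc]
    rw [Finset.sum_congr rfl fun i _ => h4 i, ← Finset.sum_mul, this, zero_mul]
  have hw2 : w = ∑ i : t, algebraMap A R (i : A) * (c i - ∑ j, algebraMap A R (a i j) * s j) := by
    simp_rw [mul_sub]
    rw [Finset.sum_sub_distrib, h3, sub_zero, ← hc]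
    refine Finset.sum_congr rfl fun i _ => ?_
    rw [smul_eq_mul, mul_comm]
  rw [hw2]
  exact Ideal.sum_mem _ fun i _ =>
    Ideal.mul_mem_mul (Ideal.mem_map_of_mem _ (ht i.2)) (he i)

end Fermat.Agent.S25.FlatInter
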