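/-
S25, block K (task K4): general criteria for an ideal to be an invertible module.
Owner: helper292.
-/
import Mathlib

set_option autoImplicit false

open scoped TensorProduct

namespace Fermat.Agent.S25.InvertibleIdeal

variable {R : Type*} [CommRing R] (I : Ideal R)

/-- the basic symmetry: `θ z * x = θ x * z` for `x z ∈ I`. -/
theorem apply_mul_comm (θ : Module.Dual R I) (x z : I) : θ z * (x : R) = θ x * (z : R) := by
  have h1 : θ ((x : R) • z) = (x : R) * θ z := by rw [map_smul, smul_eq_mul]
  have h2 : θ ((z : R) • x) = (z : R) * θ x := by rw [map_smul, smul_eq_mul]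
  have h3 : (x : R) • z = (z : R) • x := Subtype.ext (by simp [mul_comm])
  rw [h3, h2] at h1
  rw [mul_comm, ← h1, mul_comm]

theorem apply_smul_comm (θ : Module.Dual R I) (x z : I) : θ z • x = θ x • z :=
  Subtype.ext (by simpa using apply_mul_comm I θ x z)

/-- an element killing `I` kills the trace ideal. -/
theorem mul_contractLeft_eq_zero (δ : R) (hδ : ∀ y : I, δ * (y : R) = 0)
    (η : Module.Dual R I ⊗[R] I) : δ * contractLeft R I η = 0 := by
  induction η using TensorProduct.induction_on with
  | zero => simp
  | tmul θ z =>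
    rw [contractLeft_apply, ← smul_eq_mul, ← map_smul]
    have : δ • z = 0 := Subtype.ext (by simpa using hδ z)
    rw [this, map_zero]
  | add a b ha hb => rw [map_add, mul_add, ha, hb, add_zero]

/-- **Trace criterion.**  An ideal whose trace ideal is the unit ideal is an invertible module. -/
theorem invertible_of_surjective (h : Function.Surjective (contractLeft R I)) :
    Module.Invertible R I := by
  obtain ⟨η₀, hη₀⟩ := h 1
  -- the annihilator of `I` is zero
  have hann : ∀ δ : R, (∀ y : I, δ * (y : R) = 0) → δ = 0 := by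
    intro δ hδ
    have := mul_contractLeft_eq_zero I δ hδ η₀
    rwa [hη₀, mul_one] at this
  have hsymm : ∀ (θ ψ : Module.Dual R I) (x : I), θ x • ψ = ψ x • θ := by
    intro θ ψ x
    ext w
    simp only [LinearMap.smul_apply, smul_eq_mul]
    rw [← sub_eq_zero]
    apply hann
    intro y
    have e1 := apply_mul_comm I θ y x
    have e2 := apply_mul_comm I ψ w x
    have e3 := apply_mul_comm I θ y w
    -- e1 : θ x * y = θ y * x, e2 : ψ x * w = ψ w * x, e3 : θ w * y = θ y * w
    linear_combination (ψ w) * e1 - (ψ x) * e3 - (θ y) * e2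
  have key1 : ∀ (ψ : Module.Dual R I) (x : I) (η : Module.Dual R I ⊗[R] I),
      contractLeft R I η • (ψ ⊗ₜ[R] x) = ψ x • η := by
    intro ψ x η
    induction η using TensorProduct.induction_on with
    | zero => simp
    | tmul θ z =>
      rw [contractLeft_apply, ← TensorProduct.tmul_smul, apply_smul_comm I θ x z,
        TensorProduct.tmul_smul, TensorProduct.smul_tmul', hsymm θ ψ x,
        ← TensorProduct.smul_tmul']
    | add a b ha hb => rw [map_add, add_smul, ha, hb, smul_add]
  have key2 : ∀ ξ : Module.Dual R I ⊗[R] I, ξ = contractLeft R I ξ • η₀ := by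
    intro ξ
    induction ξ using TensorProduct.induction_on with
    | zero => simp
    | tmul ψ x =>
      rw [contractLeft_apply, ← key1 ψ x η₀, hη₀, one_smul]
    | add a b ha hb => rw [map_add, add_smul, ← ha, ← hb]
  refine ⟨⟨?_, h⟩⟩
  rw [injective_iff_map_eq_zero]
  intro ξ hξ
  rw [key2 ξ, hξ, zero_smul]

/-- `(h, f)` is a principal chart of the ideal `I`: on `D(h)` the ideal is generated by the
nonzerodivisor `f`. -/
structure IsChart (h f : R) : Prop where
  mem : f ∈ I
  gen : ∀ x ∈ I, ∃ r, h * x = f * r
  nzd : ∀ r, f * r = 0 → ∃ M : ℕ, h ^ M * r = 0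

variable {I}

namespace IsChart

variable {h f : R} (c : IsChart I h f)

/-- the map `R_h → I_h`, `1 ↦ f`. -/
noncomputable def toLoc : Localization.Away h →ₗ[Localization.Away h] LocalizedModule.Away h I :=
  LinearMap.toSpanSingleton _ _ (LocalizedModule.mk ⟨f, c.mem⟩ 1)

include c in
theorem toLoc_bijective : Function.Bijective c.toLoc := by
  constructor
  · rw [injective_iff_map_eq_zero]
    intro z hz
    induction z using Localization.induction_on with | _ z => ?_
    obtain ⟨r, s⟩ := z
    rw [toLoc, LinearMap.toSpanSingleton_apply, LocalizedModule.mk_smul_mk,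
      ← LocalizedModule.zero_mk 1, LocalizedModule.mk_eq] at hz
    obtain ⟨⟨_, e, rfl⟩, hu⟩ := hz
    have h1 : f * (h ^ e * r) = 0 := by
      have := congrArg Subtype.val hu
      simp only [Submonoid.smul_def, smul_zero, one_smul] at this
      have h2 : h ^ e * (r * f) = 0 := by simpa using this
      linear_combination h2
    obtain ⟨M, hM⟩ := c.nzd _ h1
    rw [Localization.mk_eq_mk', IsLocalization.mk'_eq_zero_iff]
    exact ⟨⟨h ^ (M + e), M + e, rfl⟩, by simp only; rw [pow_add, mul_assoc]; exact hM⟩
  · intro y
    induction y using LocalizedModule.induction_on with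
    | h x s =>
      obtain ⟨r, hr⟩ := c.gen x x.2
      refine ⟨Localization.mk r (s * ⟨h, Submonoid.mem_powers h⟩), ?_⟩
      rw [toLoc, LinearMap.toSpanSingleton_apply, LocalizedModule.mk_smul_mk, LocalizedModule.mk_eq]
      refine ⟨1, ?_⟩
      apply Subtype.ext
      simp only [Submonoid.smul_def, one_smul, mul_one, Submonoid.coe_mul,
        SetLike.val_smul, smul_eq_mul]
      linear_combination (-(s : R)) * hr

/-- `R_h ≃ I_h`. -/
noncomputable def equivLoc : Localization.Away h ≃ₗ[Localization.Away h] LocalizedModule.Away h I :=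
  LinearEquiv.ofBijective c.toLoc c.toLoc_bijective

theorem equivLoc_one : c.equivLoc 1 = LocalizedModule.mk ⟨f, c.mem⟩ 1 := by
  simp [equivLoc, toLoc]

include c in
theorem finitePresentation :
    Module.FinitePresentation (Localization.Away h) (LocalizedModule.Away h I) :=
  Module.FinitePresentation.of_equiv c.equivLoc

include c in
/-- a power of `h` lies in the trace ideal. -/
theorem exists_pow_mem_range [Module.FinitePresentation R I] :
    ∃ n : ℕ, h ^ n ∈ LinearMap.range (contractLeft R I) := by
  let S := Submonoid.powers h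
  let φ' : LocalizedModule.Away h I →ₗ[R] Localization.Away h :=
    c.equivLoc.symm.toLinearMap.restrictScalars R
  obtain ⟨⟨θ, s⟩, hθ⟩ := IsLocalizedModule.surj S
    (IsLocalizedModule.map S (LocalizedModule.mkLinearMap S I)
      (Algebra.linearMap R (Localization.Away h))) φ'
  obtain ⟨_, e, rfl⟩ := s
  have h1 := LinearMap.congr_fun hθ (LocalizedModule.mkLinearMap S I ⟨f, c.mem⟩)
  rw [IsLocalizedModule.map_apply] at h1
  have h2 : φ' (LocalizedModule.mkLinearMap S I ⟨f, c.mem⟩) = 1 := by
    show c.equivLoc.symm _ = 1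
    rw [LinearEquiv.symm_apply_eq, equivLoc_one]
    rfl
  rw [LinearMap.smul_apply, h2] at h1
  have h3 : algebraMap R (Localization.Away h) (h ^ e) = algebraMap R (Localization.Away h)
      (θ ⟨f, c.mem⟩) := by
    have h1' : algebraMap R (Localization.Away h) (θ ⟨f, c.mem⟩) =
      (⟨h ^ e, e, rfl⟩ : Submonoid.powers h) • (1 : Localization.Away h) := h1.symm
    rw [h1']
    simp [Submonoid.smul_def, Algebra.smul_def]
  obtain ⟨⟨_, e', rfl⟩, h4⟩ := (IsLocalization.eq_iff_exists S _).mp h3
  refine ⟨e' + e, (h ^ e' • θ) ⊗ₜ ⟨f, c.mem⟩, ?_⟩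
  rw [contractLeft_apply, LinearMap.smul_apply, smul_eq_mul, pow_add]
  exact h4.symm

end IsChart

/-- **Local criterion.**  An ideal which is, locally on `Spec R`, generated by a nonzerodivisor is an
invertible module. -/
theorem invertible_of_charts
    (H : ∀ q : Ideal R, q.IsMaximal → ∃ h f : R, h ∉ q ∧ IsChart I h f) :
    Module.Invertible R I := by
  let s : Set R := {h | ∃ f, IsChart I h f}
  have hs : Ideal.span s = ⊤ := by
    by_contra hne
    obtain ⟨q, hq, hle⟩ := Ideal.exists_le_maximal _ hne
    obtain ⟨h, f, hh, c⟩ := H q hq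
    exact hh (hle (Ideal.subset_span ⟨f, c⟩))
  have : Module.FinitePresentation R I :=
    Module.FinitePresentation.of_localizationSpan s hs (fun g => g.2.choose_spec.finitePresentation)
  apply invertible_of_surjective
  rw [← LinearMap.range_eq_top]
  by_contra hne
  obtain ⟨q, hq, hle⟩ := Ideal.exists_le_maximal (LinearMap.range (contractLeft R I)) hne
  obtain ⟨h, f, hh, c⟩ := H q hq
  obtain ⟨n, hn⟩ := c.exists_pow_mem_range
  exact hh (hq.isPrime.mem_of_pow_mem n (hle hn))

end Fermat.Agent.S25.InvertibleIdeal
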