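/-
S25, block K, task K4: the relative Cartier lemma.
Owner: helper292.

`k` a field, `A`, `B` commutative `k`-algebras such that all `K ⊗[k] B` (`K` a field over `k`) are
Dedekind domains.  A finitely generated ideal `I` of `A ⊗[k] B` with `A`-flat quotient, which is
nonzero in every fibre `κ(p) ⊗[k] B`, is an invertible module.
-/
import Fermat.Agent.S25.Alg.InvertibleIdeal
import Fermat.Agent.S25.Alg.FlatInter
import Fermat.Agent.S25.Alg.DedekindLocal
import Fermat.Agent.S25.Alg.Fibre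

set_option autoImplicit false

universe u

open scoped TensorProduct

namespace Fermat.Agent.S25.Cartier

open Fibre InvertibleIdeal

/-- The statement of task K3 (1): a fibrewise nonzero element is a nonzerodivisor. -/
def NZDSpec (k : Type u) [Field k] (B : Type u) [CommRing B] [Algebra k B] : Prop :=
  ∀ (A : Type u) [CommRing A] [Algebra k A] (f : A ⊗[k] B),
    (∀ p : PrimeSpectrum A,
      Algebra.TensorProduct.map (IsScalarTower.toAlgHom k A p.asIdeal.ResidueField)
        (AlgHom.id k B) f ≠ 0) → f ∈ nonZeroDivisors (A ⊗[k] B)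

variable {k : Type u} [Field k] {A B : Type u} [CommRing A] [CommRing B] [Algebra k A] [Algebra k B]

/-- If `a` is a coordinate of `f`, then `f` is a nonzerodivisor on `D(a)`. -/
theorem exists_pow_mul_eq_zero (hNZD : NZDSpec k B) (f : A ⊗[k] B) (i : Coeff.Idx k B)
    (r : A ⊗[k] B) (hr : f * r = 0) :
    ∃ n : ℕ, (algebraMap A (A ⊗[k] B) (Coeff.coeff f i)) ^ n * r = 0 := by
  set a := Coeff.coeff f i with ha
  let φ : A →ₐ[k] Localization.Away a := IsScalarTower.toAlgHom k A (Localization.Away a)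
  let Φ := Algebra.TensorProduct.map φ (AlgHom.id k B)
  have hf' : Φ f ∈ nonZeroDivisors (Localization.Away a ⊗[k] B) := by
    apply hNZD
    intro p h0
    have h1 := (fib_eq_zero_iff p (Φ f)).mp h0 i
    rw [Coeff.coeff_map] at h1
    have h2 : IsUnit (φ a) := IsLocalization.Away.algebraMap_isUnit a
    exact p.2.ne_top (Ideal.eq_top_of_isUnit_mem _ h1 h2)
  have h3 : Φ r = 0 := by
    have h4 : Φ r * Φ f = 0 := by rw [← map_mul, mul_comm, hr, map_zero]
    exact (mem_nonZeroDivisors_iff_right.mp hf') _ h4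
  obtain ⟨n, hn⟩ := Coeff.exists_pow_smul_eq_zero a φ (by
    intro x hx
    obtain ⟨⟨_, n, rfl⟩, hm⟩ :=
      (IsLocalization.map_eq_zero_iff (Submonoid.powers a) (Localization.Away a) x).mp hx
    exact ⟨n, hm⟩) r h3
  refine ⟨n, ?_⟩
  rw [← map_pow, ← Algebra.smul_def]
  exact hn

/-- The local structure of `I` at a prime `q`: near `q` the ideal is generated by an element `f`
one of whose coordinates does not vanish at the point below `q`. -/
theorem exists_local_generator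
    (hD : ∀ (K : Type u) [Field K] [Algebra k K], IsDedekindDomain (K ⊗[k] B))
    (I : Ideal (A ⊗[k] B)) (hfg : I.FG) [Module.Flat A ((A ⊗[k] B) ⧸ I)]
    (hI : ∀ p : PrimeSpectrum A, I.map (fib B p).toRingHom ≠ ⊥)
    (q : Ideal (A ⊗[k] B)) [hq : q.IsPrime] :
    ∃ (h f : A ⊗[k] B) (i : Coeff.Idx k B), h ∉ q ∧ f ∈ I ∧
      algebraMap A (A ⊗[k] B) (Coeff.coeff f i) ∉ q ∧ ∀ x ∈ I, h * x ∈ Ideal.span {f} := by
  classical
  set p := below q with hp
  have := hD p.asIdeal.ResidueField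
  set π := fib (k := k) B p with hπ
  set pR := p.asIdeal.map (algebraMap A (A ⊗[k] B)) with hpR
  have hpRq : pR ≤ q := Ideal.map_le_iff_le_comap.mpr le_rfl
  -- step 1: a local generator in the fibre
  obtain ⟨_, ⟨f, hfI, rfl⟩, hf0, t, ht, hgen⟩ :=
    DedekindLocal.exists_mem_mul_mem_span (fibPrime q) (π.toRingHom '' (I : Set (A ⊗[k] B))) (hI p)
  have hf0' : π f ≠ 0 := hf0
  obtain ⟨a₀, ha₀, t', ht'⟩ := exists_mul_eq_fib p t
  have hA : ∀ a : A, a ∉ p.asIdeal → algebraMap A (A ⊗[k] B) a ∉ q := fun a ha => ha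
  have ht'q : t' ∉ q := by
    intro h
    rw [← toResidue_fib_eq_zero_iff q t', ← ht', map_mul, mul_eq_zero] at h
    rcases h with h | h
    · exact hA a₀ ha₀ ((toResidue_fib_eq_zero_iff q _).mp h)
    · exact ht h
  -- step 2: `h x ∈ f R + p I` for `x ∈ I`
  set N : Ideal (A ⊗[k] B) := Ideal.span {f} ⊔ pR * I with hN
  have step2 : ∀ x ∈ I, ∃ h ∉ q, h * x ∈ N := by
    intro x hx
    have h1 : t * π x ∈ Ideal.span {π f} :=
      hgen _ (Ideal.subset_span ⟨x, hx, rfl⟩)
    obtain ⟨z, hz⟩ := Ideal.mem_span_singleton'.mp h1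
    obtain ⟨a, ha, z', hz'⟩ := exists_mul_eq_fib p z
    set w := t' * algebraMap A (A ⊗[k] B) a * x - algebraMap A (A ⊗[k] B) a₀ * f * z' with hw
    have hw0 : π w = 0 := by
      rw [hw, map_sub, map_mul, map_mul, map_mul, map_mul, ← ht', ← hz']
      linear_combination (-(π (algebraMap A (A ⊗[k] B) a₀)) * π (algebraMap A (A ⊗[k] B) a)) * hz
    have hwI : w ∈ I :=
      I.sub_mem (I.mul_mem_left _ hx) (I.mul_mem_right _ (I.mul_mem_left _ hfI))
    have hw1 : w ∈ pR * I :=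
      FlatInter.mem_map_mul_of_flat I p.asIdeal hwI (mem_map_of_fib_eq_zero p w hw0)
    refine ⟨t' * algebraMap A (A ⊗[k] B) a, fun h => (hq.mem_or_mem h).elim ht'q (hA a ha), ?_⟩
    have : t' * algebraMap A (A ⊗[k] B) a * x = f * (algebraMap A (A ⊗[k] B) a₀ * z') + w := by
      rw [hw]; ring
    rw [this]
    exact Ideal.add_mem _
      (Ideal.mem_sup_left (Ideal.mul_mem_right _ _ (Ideal.mem_span_singleton_self f)))
      (Ideal.mem_sup_right hw1)
  -- step 3: a common denominator for a finite generating family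
  obtain ⟨S, hS⟩ := hfg
  have hSI : ∀ j : S, (j : A ⊗[k] B) ∈ I := fun j => hS ▸ Ideal.subset_span j.2
  choose hh hhq hhN using fun j : S => step2 j (hSI j)
  set h₀ := ∏ j : S, hh j with hh₀
  have hh₀q : h₀ ∉ q := by
    rw [hh₀, Ideal.IsPrime.prod_mem_iff]
    rintro ⟨j, -, hj⟩
    exact hhq j hj
  have hh₀N : ∀ j : S, h₀ * (j : A ⊗[k] B) ∈ N := by
    intro j
    obtain ⟨c, hc⟩ := Finset.dvd_prod_of_mem hh (Finset.mem_univ j)
    rw [hh₀, hc, mul_comm (hh j) c, mul_assoc]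
    exact N.mul_mem_left _ (hhN j)
  have hIspan : I = Submodule.span (A ⊗[k] B) (Set.range fun j : S => (j : A ⊗[k] B)) := by
    rw [← hS, Subtype.range_coe_subtype]
    rfl
  have step3 : ∀ j : S, ∃ (r : A ⊗[k] B) (c : S → A ⊗[k] B), (∀ l, c l ∈ q) ∧
      h₀ * (j : A ⊗[k] B) = f * r + ∑ l, c l * (l : A ⊗[k] B) := by
    intro j
    obtain ⟨y, hy, z, hz, hyz⟩ := Submodule.mem_sup.mp (hh₀N j)
    obtain ⟨r, rfl⟩ := Ideal.mem_span_singleton'.mp hy
    rw [← smul_eq_mul, hIspan, Submodule.mem_ideal_smul_span_iff_exists_sum] at hz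
    obtain ⟨c, hc, rfl⟩ := hz
    refine ⟨r, c, fun l => hpRq (hc l), ?_⟩
    rw [← hyz, Finsupp.sum_fintype c (fun i c => c • (i : A ⊗[k] B)) (fun _ => zero_smul _ _),
      mul_comm r f]
    rfl
  choose r C hC hrC using step3
  obtain ⟨h₁, hh₁q, hh₁⟩ := DedekindLocal.exists_mul_mem_span_singleton q
    (fun j : S => (j : A ⊗[k] B)) f h₀ hh₀q (Matrix.of C) (fun i j => hC i j) r hrC
  have hgen1 : ∀ x ∈ I, h₁ * x ∈ Ideal.span {f} := by
    intro x hx
    rw [← hS] at hx
    refine Submodule.span_induction (p := fun x _ => h₁ * x ∈ Ideal.span {f}) ?_ ?_ ?_ ?_ hx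
    · intro y hy
      obtain ⟨r', hr'⟩ := hh₁ ⟨y, hy⟩
      rw [Ideal.mem_span_singleton']
      exact ⟨r', by rw [mul_comm]; exact hr'.symm⟩
    · simp
    · intro y z _ _ hy hz
      rw [mul_add]; exact Ideal.add_mem _ hy hz
    · intro c y _ hy
      rw [smul_eq_mul, mul_left_comm]; exact Ideal.mul_mem_left _ _ hy
  -- step 4: `f` is a nonzerodivisor near `p`
  have hcoef : ∃ i, Coeff.coeff f i ∉ p.asIdeal := by
    by_contra hcon
    push Not at hcon
    exact hf0' ((fib_eq_zero_iff p f).mpr hcon)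
  obtain ⟨i, hi⟩ := hcoef
  exact ⟨h₁, f, i, hh₁q, hfI, hA _ hi, hgen1⟩

/-- The local structure of `I` at a prime `q`, as a chart. -/
theorem exists_chart (hNZD : NZDSpec k B)
    (hD : ∀ (K : Type u) [Field K] [Algebra k K], IsDedekindDomain (K ⊗[k] B))
    (I : Ideal (A ⊗[k] B)) (hfg : I.FG) [Module.Flat A ((A ⊗[k] B) ⧸ I)]
    (hI : ∀ p : PrimeSpectrum A, I.map (fib B p).toRingHom ≠ ⊥)
    (q : Ideal (A ⊗[k] B)) [hq : q.IsPrime] :
    ∃ h f : A ⊗[k] B, h ∉ q ∧ IsChart I h f := by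
  obtain ⟨h₁, f, i, hh₁q, hfI, hi, hgen1⟩ := exists_local_generator hD I hfg hI q
  set a := algebraMap A (A ⊗[k] B) (Coeff.coeff f i) with ha
  refine ⟨h₁ * a, f, fun h => (hq.mem_or_mem h).elim hh₁q hi, hfI, ?_, ?_⟩
  · intro x hx
    obtain ⟨r', hr'⟩ := Ideal.mem_span_singleton'.mp (hgen1 x hx)
    exact ⟨r' * a, by rw [mul_right_comm, ← hr']; ring⟩
  · intro r' hr'
    obtain ⟨n, hn⟩ := exists_pow_mul_eq_zero hNZD f i r' hr'
    exact ⟨n, by rw [mul_pow, mul_assoc, hn, mul_zero]⟩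

/-- **Relative Cartier lemma.** -/
theorem invertible_of_flat (hNZD : NZDSpec k B)
    (hD : ∀ (K : Type u) [Field K] [Algebra k K], IsDedekindDomain (K ⊗[k] B))
    (I : Ideal (A ⊗[k] B)) (hfg : I.FG) [Module.Flat A ((A ⊗[k] B) ⧸ I)]
    (hI : ∀ p : PrimeSpectrum A,
      I.map (Algebra.TensorProduct.map (IsScalarTower.toAlgHom k A p.asIdeal.ResidueField)
        (AlgHom.id k B)).toRingHom ≠ ⊥) :
    Module.Invertible (A ⊗[k] B) I :=
  invertible_of_charts fun q hq =>
    haveI := hq.isPrime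
    exists_chart hNZD hD I hfg hI q

end Fermat.Agent.S25.Cartier
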