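/-
S25-K3 (owner: helper125).  Fibrewise nonzero elements of `A ⊗[k] B` are nonzerodivisors with
`A`-flat quotient; the locus where an element is fibrewise nonzero is open.
-/
import Mathlib

set_option autoImplicit false

universe u

open scoped TensorProduct

namespace Fermat.Agent.S25.NZD

variable {k : Type u} [Field k] {A A' B : Type u} [CommRing A] [Algebra k A]
  [CommRing A'] [Algebra k A'] [CommRing B] [Algebra k B]

/-- base change of the first factor along `φ : A → A'` -/
noncomputable abbrev bc (B : Type u) [CommRing B] [Algebra k B] (φ : A →ₐ[k] A') :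
    A ⊗[k] B →ₐ[k] A' ⊗[k] B :=
  Algebra.TensorProduct.map φ (AlgHom.id k B)

/-- restriction to the fibre over `p` -/
noncomputable abbrev fib (B : Type u) [CommRing B] [Algebra k B] (p : PrimeSpectrum A) :
    A ⊗[k] B →ₐ[k] p.asIdeal.ResidueField ⊗[k] B :=
  Algebra.TensorProduct.map (IsScalarTower.toAlgHom k A p.asIdeal.ResidueField) (AlgHom.id k B)

section coordinates

variable {ι : Type*} (b : Module.Basis ι k B)

/-- coordinates of an element of `A ⊗[k] B` with respect to the `A`-basis `1 ⊗ b i` -/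
noncomputable def co (x : A ⊗[k] B) (i : ι) : A := (Algebra.TensorProduct.basis A b).repr x i

theorem co_bc (φ : A →ₐ[k] A') (x : A ⊗[k] B) (i : ι) : co b (bc B φ x) i = φ (co b x i) := by
  induction x using TensorProduct.induction_on with
  | zero => simp [co]
  | tmul a y =>
    simp only [co, bc, Algebra.TensorProduct.map_tmul, Algebra.TensorProduct.basis_repr_tmul,
      Finsupp.smul_apply, Finsupp.mapRange_apply, smul_eq_mul, map_mul, AlgHom.commutes,
      AlgHom.coe_id, id_eq]
  | add x y hx hy =>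
    simp only [co, map_add, Finsupp.add_apply] at hx hy ⊢
    rw [hx, hy]

theorem eq_zero_iff_co (x : A ⊗[k] B) : x = 0 ↔ ∀ i, co b x i = 0 := by
  constructor
  · rintro rfl i; simp [co]
  · intro h
    apply (Algebra.TensorProduct.basis A b).ext_elem
    intro i
    simpa [co] using h i

theorem bc_eq_zero_iff (φ : A →ₐ[k] A') (x : A ⊗[k] B) :
    bc B φ x = 0 ↔ ∀ i, φ (co b x i) = 0 := by
  rw [eq_zero_iff_co b]
  simp only [co_bc]

theorem fib_ne_zero_iff (p : PrimeSpectrum A) (x : A ⊗[k] B) :
    fib B p x ≠ 0 ↔ ∃ i, co b x i ∉ p.asIdeal := by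
  rw [Ne, show fib B p x = bc B (IsScalarTower.toAlgHom k A p.asIdeal.ResidueField) x from rfl,
    bc_eq_zero_iff b]
  push Not
  refine exists_congr fun i => ?_
  rw [IsScalarTower.coe_toAlgHom', Ne, Ideal.algebraMap_residueField_eq_zero]

end coordinates

/-- **(3)** the locus where `f` is fibrewise nonzero is open. -/
theorem isOpen_fib_ne_zero (f : A ⊗[k] B) : IsOpen {p : PrimeSpectrum A | fib B p f ≠ 0} := by
  let b := Module.Basis.ofVectorSpace k B
  have : {p : PrimeSpectrum A | fib B p f ≠ 0} =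
      ⋃ i, (PrimeSpectrum.basicOpen (co b f i) : Set (PrimeSpectrum A)) := by
    ext p
    simp only [Set.mem_ofPred_eq, fib_ne_zero_iff b, Set.mem_iUnion, SetLike.mem_coe,
      PrimeSpectrum.mem_basicOpen]
  rw [this]
  exact isOpen_iUnion fun i => (PrimeSpectrum.basicOpen _).isOpen

section main

variable {ι : Type*} (b : Module.Basis ι k B)

theorem bc_basis (φ : A →ₐ[k] A') (j : ι) :
    bc B φ (Algebra.TensorProduct.basis A b j) = Algebra.TensorProduct.basis A' b j := by
  simp [bc, Algebra.TensorProduct.basis_apply]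

/-- expansion of the coordinates of a product -/
theorem co_mul (f x : A ⊗[k] B) (l : ι) :
    co b (f * x) l = ∑ j ∈ ((Algebra.TensorProduct.basis A b).repr x).support,
      co b x j * co b (f * Algebra.TensorProduct.basis A b j) l := by
  conv_lhs => rw [← (Algebra.TensorProduct.basis A b).linearCombination_repr x]
  rw [Finsupp.linearCombination_apply, Finsupp.sum, Finset.mul_sum]
  simp only [co, map_sum, mul_smul_comm, map_smul, Finsupp.finsetSum_apply, Finsupp.smul_apply,
    smul_eq_mul]

/-- Nakayama: a nonzero finitely generated ideal `J` has a maximal ideal `m` with `J ≠ m J`. -/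
theorem exists_maximal_not_le_smul {J : Ideal A} (hfg : J.FG) (hJ : J ≠ ⊥) :
    ∃ m : Ideal A, m.IsMaximal ∧ ¬ J ≤ m • J := by
  by_contra hcon
  push Not at hcon
  have hann : Submodule.annihilator J ≠ ⊤ := by
    intro h
    apply hJ
    rw [eq_bot_iff]
    intro y hy
    have h1 : (1 : A) ∈ Submodule.annihilator J := h ▸ Submodule.mem_top
    simpa using Submodule.mem_annihilator.mp h1 y hy
  obtain ⟨m, hm, hle⟩ := Ideal.exists_le_maximal _ hann
  obtain ⟨r, hr, hr0⟩ :=
    Submodule.exists_sub_one_mem_and_smul_eq_zero_of_fg_of_le_smul m J hfg (hcon m hm)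
  have hrm : r ∈ m := hle (Submodule.mem_annihilator.mpr hr0)
  apply hm.ne_top
  rw [Ideal.eq_top_iff_one]
  have := m.sub_mem hrm hr
  simpa using this

/-- a functional on `J` with values in `A ⧸ m` not vanishing at a given element outside `m J` -/
theorem exists_functional {J m : Ideal A} [hm : m.IsMaximal] {y : A} (hy : y ∈ J)
    (hy' : y ∉ m • J) : ∃ ψ : J →ₗ[A] (A ⧸ m), ψ ⟨y, hy⟩ ≠ 0 := by
  let _ := Ideal.Quotient.field m
  have hv : (Submodule.mkQ (m • ⊤ : Submodule A J)) ⟨y, hy⟩ ≠ 0 := by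
    rw [Ne, Submodule.mkQ_apply, Submodule.Quotient.mk_eq_zero]
    intro h
    apply hy'
    have h2 : J.subtype ⟨y, hy⟩ ∈ Submodule.map J.subtype (m • ⊤ : Submodule A J) :=
      Submodule.mem_map_of_mem h
    rwa [Submodule.map_smul'', Submodule.map_subtype_top] at h2
  have h3 := (Module.forall_dual_apply_eq_zero_iff (A ⧸ m)
    ((Submodule.mkQ (m • ⊤ : Submodule A J)) ⟨y, hy⟩)).not.mpr hv
  push Not at h3
  obtain ⟨φ, hφ⟩ := h3
  exact ⟨(φ.restrictScalars A).comp (Submodule.mkQ _), hφ⟩

/-- **(1)**, coordinate form. -/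
theorem eq_zero_of_mul_eq_zero
    (hB : ∀ (K : Type u) [Field K] [Algebra k K], IsDomain (K ⊗[k] B))
    {f x : A ⊗[k] B} (hf : ∀ m : Ideal A, m.IsMaximal → ∃ i, co b f i ∉ m)
    (hfx : f * x = 0) : x = 0 := by
  classical
  by_contra hx
  set s := ((Algebra.TensorProduct.basis A b).repr x).support with hs
  let J : Ideal A := Ideal.span (↑(s.image (co b x)) : Set A)
  have hmem : ∀ j, co b x j ∈ J := by
    intro j
    by_cases hj : j ∈ s
    · exact Ideal.subset_span (by simpa using ⟨j, hj, rfl⟩)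
    · have : co b x j = 0 := by simpa [hs, co] using hj
      rw [this]; exact J.zero_mem
  have hJ0 : J ≠ ⊥ := by
    intro h
    apply hx
    rw [eq_zero_iff_co b]
    intro i
    have := hmem i
    rwa [h, Ideal.mem_bot] at this
  obtain ⟨m, hm, hle⟩ := exists_maximal_not_le_smul ⟨_, rfl⟩ hJ0
  obtain ⟨j₀, hj₀⟩ : ∃ j, co b x j ∉ m • J := by
    by_contra hcon
    push Not at hcon
    apply hle
    rw [Ideal.span_le]
    intro y hy
    simp only [Finset.coe_image, Set.mem_image] at hy
    obtain ⟨j, -, rfl⟩ := hy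
    exact hcon j
  obtain ⟨ψ, hψ⟩ := exists_functional (hmem j₀) hj₀
  let _ := Ideal.Quotient.field m
  have := hB (A ⧸ m)
  let π : A →ₐ[k] A ⧸ m := Ideal.Quotient.mkₐ k m
  let c : ι → A ⧸ m := fun j => ψ ⟨co b x j, hmem j⟩
  let ξ : (A ⧸ m) ⊗[k] B := ∑ j ∈ s, c j • Algebra.TensorProduct.basis (A ⧸ m) b j
  have hfbar : bc B π f ≠ 0 := by
    rw [Ne, bc_eq_zero_iff b]
    push Not
    obtain ⟨i, hi⟩ := hf m hm
    exact ⟨i, by simpa [π, Ideal.Quotient.eq_zero_iff_mem] using hi⟩
  have hprod : bc B π f * ξ = 0 := by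
    rw [eq_zero_iff_co b]
    intro l
    have h1 : co b (bc B π f * ξ) l =
        ∑ j ∈ s, c j * π (co b (f * Algebra.TensorProduct.basis A b j) l) := by
      simp only [ξ, Finset.mul_sum, mul_smul_comm, ← bc_basis b π, ← map_mul]
      simp only [co, map_sum, map_smul, Finsupp.finsetSum_apply, Finsupp.smul_apply, smul_eq_mul]
      refine Finset.sum_congr rfl fun j _ => ?_
      congr 1
      exact co_bc b π _ l
    have h2 : ∑ j ∈ s, co b (f * Algebra.TensorProduct.basis A b j) l •
        (⟨co b x j, hmem j⟩ : J) = 0 := by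
      apply Subtype.ext
      have := co_mul b f x l
      rw [hfx] at this
      simp only [Submodule.coe_sum, Submodule.coe_smul, smul_eq_mul, Submodule.coe_zero]
      rw [show co b (0 : A ⊗[k] B) l = 0 by simp [co]] at this
      rw [this]
      exact Finset.sum_congr rfl fun j _ => mul_comm _ _
    have h3 := congrArg ψ h2
    rw [map_sum, map_zero] at h3
    rw [h1, ← h3]
    refine Finset.sum_congr rfl fun j _ => ?_
    rw [map_smul, Algebra.smul_def, mul_comm]
    rfl
  have hξ : ξ = 0 := (mul_eq_zero.mp hprod).resolve_left hfbar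
  have hc : c j₀ = 0 := by
    have h4 : co b ξ j₀ = if j₀ ∈ s then c j₀ else 0 := by
      simp only [ξ, co, map_sum, map_smul, Module.Basis.repr_self, Finsupp.finsetSum_apply,
        Finsupp.smul_apply, smul_eq_mul, Finsupp.single_apply, mul_ite, mul_one, mul_zero,
        Finset.sum_ite_eq']
    rw [hξ] at h4
    by_cases hj : j₀ ∈ s
    · rw [if_pos hj] at h4
      rw [← h4]; simp [co]
    · have h5 : co b x j₀ = 0 := by simpa [hs, co] using hj
      show ψ ⟨co b x j₀, hmem j₀⟩ = 0
      have : (⟨co b x j₀, hmem j₀⟩ : J) = 0 := Subtype.ext h5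
      rw [this, map_zero]
  exact hψ hc

end main

/-- **(1)** a fibrewise nonzero element is a nonzerodivisor. -/
theorem mem_nonZeroDivisors
    (hB : ∀ (K : Type u) [Field K] [Algebra k K], IsDomain (K ⊗[k] B))
    (f : A ⊗[k] B) (hf : ∀ p : PrimeSpectrum A, fib B p f ≠ 0) :
    f ∈ nonZeroDivisors (A ⊗[k] B) := by
  let b := Module.Basis.ofVectorSpace k B
  rw [mem_nonZeroDivisors_iff_right]
  intro x hx
  rw [mul_comm] at hx
  exact eq_zero_of_mul_eq_zero b hB
    (fun m hm => (fib_ne_zero_iff b ⟨m, hm.isPrime⟩ f).mp (hf _)) hx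

/-! ### flatness of the quotient -/

section flat

/-- A quotient `P ⧸ N` of a flat module is flat as soon as `N ∩ I P ⊆ I N` for all
(finitely generated) ideals `I`. -/
theorem flat_quotient_of_inf_le {P : Type*} [AddCommGroup P] [Module A P] [Module.Flat A P]
    (N : Submodule A P)
    (h : ∀ I : Ideal A, I.FG → N ⊓ (I • ⊤ : Submodule A P) ≤ I • N) : Module.Flat A (P ⧸ N) := by
  rw [Module.Flat.iff_lift_lsmul_comp_subtype_injective]
  intro I hI
  rw [injective_iff_map_eq_zero]
  intro z hz
  obtain ⟨z', rfl⟩ := LinearMap.lTensor_surjective I N.mkQ_surjective z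
  have hnat : ∀ w : I ⊗[A] P, N.mkQ (TensorProduct.lift ((LinearMap.lsmul A P).comp I.subtype) w) =
      TensorProduct.lift ((LinearMap.lsmul A (P ⧸ N)).comp I.subtype)
        (LinearMap.lTensor I N.mkQ w) := by
    intro w
    induction w using TensorProduct.induction_on with
    | zero => simp
    | tmul i p => simp
    | add x y hx hy => simp only [map_add, hx, hy]
  have h2 : TensorProduct.lift ((LinearMap.lsmul A P).comp I.subtype) z' ∈ N := by
    rw [← Submodule.ker_mkQ N, LinearMap.mem_ker, hnat, hz]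
  have h3 : ∀ w : I ⊗[A] P, TensorProduct.lift ((LinearMap.lsmul A P).comp I.subtype) w ∈
      (I • ⊤ : Submodule A P) := by
    intro w
    induction w using TensorProduct.induction_on with
    | zero => simp
    | tmul i p => simpa using Submodule.smul_mem_smul i.2 (Submodule.mem_top (x := p))
    | add x y hx hy => rw [map_add]; exact Submodule.add_mem _ hx hy
  have h4 := h I hI ⟨h2, h3 z'⟩
  obtain ⟨n', hn'⟩ : ∃ n' : I ⊗[A] N,
      TensorProduct.lift ((LinearMap.lsmul A P).comp I.subtype) (LinearMap.lTensor I N.subtype n') =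
        TensorProduct.lift ((LinearMap.lsmul A P).comp I.subtype) z' := by
    refine Submodule.smul_induction_on h4 (fun r hr n hn => ⟨(⟨r, hr⟩ : I) ⊗ₜ (⟨n, hn⟩ : N), ?_⟩) ?_
    · simp
    · rintro x y ⟨a, ha⟩ ⟨c, hc⟩
      exact ⟨a + c, by rw [map_add, map_add, ha, hc]⟩
  have h5 := (Module.Flat.iff_lift_lsmul_comp_subtype_injective.mp ‹Module.Flat A P› hI) hn'
  rw [← h5, ← LinearMap.lTensor_comp_apply]
  have : N.mkQ ∘ₗ N.subtype = 0 := by
    ext n; simp
  rw [this]
  simp

variable {ι : Type*} (b : Module.Basis ι k B)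

theorem mem_smul_top_iff (I : Ideal A) (x : A ⊗[k] B) :
    x ∈ (I • ⊤ : Submodule A (A ⊗[k] B)) ↔ ∀ i, co b x i ∈ I := by
  constructor
  · intro hx i
    refine Submodule.smul_induction_on hx (fun r hr n _ => ?_) (fun x y hx hy => ?_)
    · simp only [co, map_smul, Finsupp.smul_apply, smul_eq_mul]
      exact I.mul_mem_right _ hr
    · simp only [co, map_add, Finsupp.add_apply] at hx hy ⊢
      exact I.add_mem hx hy
  · intro h
    rw [← (Algebra.TensorProduct.basis A b).linearCombination_repr x,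
      Finsupp.linearCombination_apply, Finsupp.sum]
    exact Submodule.sum_mem _ fun j _ => Submodule.smul_mem_smul (h j) Submodule.mem_top

/-- **(2)**, coordinate form. -/
theorem flat_quotient_aux
    (hB : ∀ (K : Type u) [Field K] [Algebra k K], IsDomain (K ⊗[k] B))
    (f : A ⊗[k] B) (hf : ∀ m : Ideal A, m.IsMaximal → ∃ i, co b f i ∉ m) :
    Module.Flat A ((A ⊗[k] B) ⧸ Ideal.span {f}) := by
  have : Module.Flat A ((A ⊗[k] B) ⧸ (Ideal.span {f}).restrictScalars A) := by
    apply flat_quotient_of_inf_le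
    rintro I - w ⟨hw1, hw2⟩
    replace hw1 : w ∈ Ideal.span {f} := hw1
    replace hw2 : w ∈ (I • ⊤ : Submodule A (A ⊗[k] B)) := hw2
    rw [Ideal.mem_span_singleton'] at hw1
    obtain ⟨u, rfl⟩ := hw1
    -- reduce modulo `I`
    let π : A →ₐ[k] A ⧸ I := Ideal.Quotient.mkₐ k I
    have h0 : bc B π f * bc B π u = 0 := by
      rw [← map_mul, bc_eq_zero_iff b]
      intro i
      have := (mem_smul_top_iff b I (u * f)).mp hw2 i
      rw [mul_comm f u]
      simpa [π, Ideal.Quotient.eq_zero_iff_mem] using this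
    have hf' : ∀ m : Ideal (A ⧸ I), m.IsMaximal → ∃ i, co b (bc B π f) i ∉ m := by
      intro m hm
      have hm' : (m.comap (Ideal.Quotient.mk I)).IsMaximal :=
        Ideal.comap_isMaximal_of_surjective _ Ideal.Quotient.mk_surjective
      obtain ⟨i, hi⟩ := hf _ hm'
      refine ⟨i, ?_⟩
      rw [co_bc]
      exact hi
    have hu : bc B π u = 0 := eq_zero_of_mul_eq_zero b hB hf' h0
    rw [bc_eq_zero_iff b] at hu
    have hu' : ∀ i, co b u i ∈ I := fun i => by
      simpa [π, Ideal.Quotient.eq_zero_iff_mem] using hu i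
    rw [← (Algebra.TensorProduct.basis A b).linearCombination_repr u,
      Finsupp.linearCombination_apply, Finsupp.sum, Finset.sum_mul]
    refine Submodule.sum_mem _ fun j _ => ?_
    rw [smul_mul_assoc]
    refine Submodule.smul_mem_smul (hu' j) ?_
    rw [Submodule.restrictScalars_mem]
    exact Ideal.mul_mem_left _ _ (Ideal.mem_span_singleton_self f)
  exact Module.Flat.of_linearEquiv
    (Submodule.Quotient.restrictScalarsEquiv A (Ideal.span {f})).symm

end flat

/-- **(2)** the quotient by a fibrewise nonzero element is flat over `A`. -/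
theorem flat_quotient
    (hB : ∀ (K : Type u) [Field K] [Algebra k K], IsDomain (K ⊗[k] B))
    (f : A ⊗[k] B) (hf : ∀ p : PrimeSpectrum A, fib B p f ≠ 0) :
    Module.Flat A ((A ⊗[k] B) ⧸ Ideal.span {f}) :=
  flat_quotient_aux (Module.Basis.ofVectorSpace k B) hB f
    (fun m hm => (fib_ne_zero_iff _ ⟨m, hm.isPrime⟩ f).mp (hf _))

/-- compatibility of fibres with base change: the fibre of `bc φ f` at `q` is nonzero iff the fibre
of `f` at `φ⁻¹ q` is. -/
theorem fib_bc_ne_zero_iff (φ : A →ₐ[k] A') (f : A ⊗[k] B) (q : PrimeSpectrum A') :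
    fib B q (bc B φ f) ≠ 0 ↔ fib B (PrimeSpectrum.comap φ.toRingHom q) f ≠ 0 := by
  let b := Module.Basis.ofVectorSpace k B
  rw [fib_ne_zero_iff b, fib_ne_zero_iff b]
  refine exists_congr fun i => ?_
  rw [co_bc]
  rfl

end Fermat.Agent.S25.NZD
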