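/-
S25, block K, task K4 (second part): relative effective Cartier divisors on `Spec (A ⊗[k] B)`.
Owner: helper292.

`IsRelCartier I`      : `I` finitely generated, `(A ⊗ B) ⧸ I` flat over `A`, `I` nonzero in all fibres.
`IsLocPrincipal I`    : near every prime, `I` is generated by an element one of whose coordinates is
                        a unit there.
The two notions agree (when all `K ⊗[k] B` are Dedekind domains); the second one is obviously stable
under products, base change `A → A'` and injective maps `B → B'`.  Such ideals are invertible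
modules and their formation commutes with base change (`IsBCMap`).
-/
import Fermat.Agent.S25.Alg.Cartier
import Fermat.Agent.S25.Alg.NZD
import Fermat.Agent.S25.Triple.BCModLemmas
import Fermat.Agent.S25.Triple.BCModMathlib

set_option autoImplicit false

universe u

open scoped TensorProduct

namespace Fermat.Agent.S25.Cartier

open Fibre InvertibleIdeal

/-! ### generalities -/

section General

variable {R S : Type u} [CommRing R] [CommRing S]

/-- membership in an ideal is local -/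
theorem mem_of_forall_maximal (N : Ideal R) (w : R)
    (H : ∀ q : Ideal R, q.IsMaximal → ∃ c, c ∉ q ∧ c * w ∈ N) : w ∈ N := by
  let C : Ideal R := Submodule.comap (LinearMap.mulRight R w) N
  have hC : ∀ c, c ∈ C ↔ c * w ∈ N := fun c => Iff.rfl
  by_contra hne
  have hCne : C ≠ ⊤ := by
    intro h
    apply hne
    have : (1 : R) ∈ C := h ▸ Submodule.mem_top
    rwa [hC, one_mul] at this
  obtain ⟨q, hq, hle⟩ := Ideal.exists_le_maximal C hCne
  obtain ⟨c, hc, hcw⟩ := H q hq
  exact hc (hle ((hC c).mpr hcw))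

/-- the canonical semilinear map `I → I S` -/
def mapIncl (f : R →+* S) (I : Ideal R) : I →ₛₗ[f] (I.map f : Ideal S) where
  toFun x := ⟨f x, Ideal.mem_map_of_mem f x.2⟩
  map_add' a b := Subtype.ext (map_add f a.1 b.1)
  map_smul' r a := Subtype.ext (map_mul f r a.1)

@[simp] theorem coe_mapIncl (f : R →+* S) (I : Ideal R) (x : I) :
    ((mapIncl f I x : (I.map f : Ideal S)) : S) = f x := rfl

/-- If `I` and `I S` are both invertible then `I S = S ⊗[R] I`. -/
theorem isBCMap_mapIncl (f : R →+* S) (I : Ideal R) (h1 : Module.Invertible R I)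
    (h2 : Module.Invertible S (I.map f : Ideal S)) : IsBCMap f (mapIncl f I) := by
  have hβ₀ : IsBCMap f (BCMod.mk f I) := BCMod.isBCMap_mk f I
  have h3 : Module.Invertible S (BCMod f I) := hβ₀.invertible h1
  let g : BCMod f I →ₗ[S] (I.map f : Ideal S) := hβ₀.lift (mapIncl f I)
  have hsurj : Function.Surjective g := by
    have key : ∀ y : S, y ∈ I.map f → ∃ t, ((g t : (I.map f : Ideal S)) : S) = y := by
      intro y hy
      refine Submodule.span_induction (p := fun y _ => ∃ t, ((g t : (I.map f : Ideal S)) : S) = y)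
        ?_ ?_ ?_ ?_ hy
      · rintro _ ⟨x, hx, rfl⟩
        exact ⟨BCMod.mk f I ⟨x, hx⟩, by rw [hβ₀.lift_apply]; rfl⟩
      · exact ⟨0, by simp⟩
      · rintro _ _ _ _ ⟨t, rfl⟩ ⟨t', rfl⟩
        exact ⟨t + t', by simp⟩
      · rintro c _ _ ⟨t, rfl⟩
        exact ⟨c • t, by simp⟩
    rintro ⟨y, hy⟩
    obtain ⟨t, ht⟩ := key y hy
    exact ⟨t, Subtype.ext ht⟩
  have hbij : Function.Bijective g := Module.Invertible.bijective_of_surjective hsurj
  exact hβ₀.of_equiv (LinearEquiv.ofBijective g hbij) (mapIncl f I)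
    (fun m => (hβ₀.lift_apply _ m).symm)

end General

variable {k : Type u} [Field k] {A A' B B' : Type u} [CommRing A] [CommRing A'] [CommRing B]
  [CommRing B'] [Algebra k A] [Algebra k A'] [Algebra k B] [Algebra k B']

theorem nzdSpec_of_isDomain
    (hB : ∀ (K : Type u) [Field K] [Algebra k K], IsDomain (K ⊗[k] B)) : NZDSpec k B :=
  fun _ _ _ f hf => NZD.mem_nonZeroDivisors hB f hf

theorem isDomain_of_isDedekindDomain
    (hD : ∀ (K : Type u) [Field K] [Algebra k K], IsDedekindDomain (K ⊗[k] B))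
    (K : Type u) [Field K] [Algebra k K] : IsDomain (K ⊗[k] B) :=
  have := hD K
  inferInstance

/-- A relative effective Cartier divisor of `Spec (A ⊗ B)` over `Spec A`. -/
structure IsRelCartier (I : Ideal (A ⊗[k] B)) : Prop where
  fg : I.FG
  flat : Module.Flat A ((A ⊗[k] B) ⧸ I)
  fib_ne : ∀ p : PrimeSpectrum A, I.map (fib B p).toRingHom ≠ ⊥

/-- Near every prime `q` the ideal `I` is generated by an element `f` one of whose coordinates
does not vanish at `q`. -/
def IsLocPrincipal (I : Ideal (A ⊗[k] B)) : Prop :=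
  ∀ q : Ideal (A ⊗[k] B), q.IsPrime → ∃ (h f : A ⊗[k] B) (i : Coeff.Idx k B), h ∉ q ∧ f ∈ I ∧
    algebraMap A (A ⊗[k] B) (Coeff.coeff f i) ∉ q ∧ ∀ x ∈ I, h * x ∈ Ideal.span {f}

theorem IsRelCartier.isLocPrincipal
    (hD : ∀ (K : Type u) [Field K] [Algebra k K], IsDedekindDomain (K ⊗[k] B))
    {I : Ideal (A ⊗[k] B)} (hI : IsRelCartier I) : IsLocPrincipal I := fun q _ =>
  have := hI.flat
  exists_local_generator hD I hI.fg hI.fib_ne q

/-- an element with a coordinate outside `q` is nonzero in the fibre below `q` -/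
theorem fib_ne_zero_of_coeff (q : Ideal (A ⊗[k] B)) [q.IsPrime] (f : A ⊗[k] B) (i : Coeff.Idx k B)
    (hi : algebraMap A (A ⊗[k] B) (Coeff.coeff f i) ∉ q) : fib B (below q) f ≠ 0 :=
  fun h => hi ((fib_eq_zero_iff (below q) f).mp h i)

theorem exists_coeff_of_fib_ne_zero (q : Ideal (A ⊗[k] B)) [q.IsPrime] (f : A ⊗[k] B)
    (hf : fib B (below q) f ≠ 0) :
    ∃ i : Coeff.Idx k B, algebraMap A (A ⊗[k] B) (Coeff.coeff f i) ∉ q := by
  by_contra hcon
  push Not at hcon
  exact hf ((fib_eq_zero_iff (below q) f).mpr hcon)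

namespace IsLocPrincipal

variable {I J : Ideal (A ⊗[k] B)}

theorem exists_isChart (hB : ∀ (K : Type u) [Field K] [Algebra k K], IsDomain (K ⊗[k] B))
    (hI : IsLocPrincipal I) (q : Ideal (A ⊗[k] B)) (hq : q.IsPrime) :
    ∃ h f : A ⊗[k] B, h ∉ q ∧ IsChart I h f := by
  obtain ⟨h₁, f, i, hh₁q, hfI, hi, hgen1⟩ := hI q hq
  set a := algebraMap A (A ⊗[k] B) (Coeff.coeff f i) with ha
  refine ⟨h₁ * a, f, fun h => (hq.mem_or_mem h).elim hh₁q hi, hfI, ?_, ?_⟩
  · intro x hx
    obtain ⟨r', hr'⟩ := Ideal.mem_span_singleton'.mp (hgen1 x hx)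
    exact ⟨r' * a, by rw [mul_right_comm, ← hr']; ring⟩
  · intro r' hr'
    obtain ⟨n, hn⟩ := exists_pow_mul_eq_zero (nzdSpec_of_isDomain hB) f i r' hr'
    exact ⟨n, by rw [mul_pow, mul_assoc, hn, mul_zero]⟩

theorem invertible (hB : ∀ (K : Type u) [Field K] [Algebra k K], IsDomain (K ⊗[k] B))
    (hI : IsLocPrincipal I) : Module.Invertible (A ⊗[k] B) I :=
  invertible_of_charts fun q hq => hI.exists_isChart hB q hq.isPrime

theorem fg (hB : ∀ (K : Type u) [Field K] [Algebra k K], IsDomain (K ⊗[k] B))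
    (hI : IsLocPrincipal I) : I.FG := by
  have := hI.invertible hB
  exact (Submodule.fg_top I).mp (Module.Finite.fg_top (R := A ⊗[k] B) (M := I))

/-- `I ∩ 𝔞 R = 𝔞 I` -/
theorem mem_map_mul (hB : ∀ (K : Type u) [Field K] [Algebra k K], IsDomain (K ⊗[k] B))
    (hI : IsLocPrincipal I) (𝔞 : Ideal A) {w : A ⊗[k] B} (hwI : w ∈ I)
    (hw : w ∈ 𝔞.map (algebraMap A (A ⊗[k] B))) : w ∈ 𝔞.map (algebraMap A (A ⊗[k] B)) * I := by
  apply mem_of_forall_maximal
  intro q hq
  obtain ⟨h, f, i, hh, hf, hi, hgen⟩ := hI q hq.isPrime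
  obtain ⟨y, hy⟩ := Ideal.mem_span_singleton'.mp (hgen w hwI)
  let π : A →ₐ[k] A ⧸ 𝔞 := Ideal.Quotient.mkₐ k 𝔞
  let Ψ := Algebra.TensorProduct.map π (AlgHom.id k B)
  have hker : 𝔞.map (algebraMap A (A ⊗[k] B)) ≤ RingHom.ker Ψ.toRingHom := by
    rw [Ideal.map_le_iff_le_comap]
    intro a ha
    have h1 : π a = 0 := Ideal.Quotient.eq_zero_iff_mem.mpr ha
    change Ψ (algebraMap A (A ⊗[k] B) a) = 0
    rw [Algebra.TensorProduct.algebraMap_apply, Algebra.TensorProduct.map_tmul]
    change π a ⊗ₜ[k] _ = 0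
    rw [h1, TensorProduct.zero_tmul]
  have hw0 : Ψ w = 0 := hker hw
  have h0 : Ψ f * Ψ y = 0 := by
    rw [← map_mul, mul_comm, hy, map_mul, hw0, mul_zero]
  obtain ⟨n, hn⟩ := exists_pow_mul_eq_zero (nzdSpec_of_isDomain hB) (Ψ f) i (Ψ y) h0
  rw [Coeff.coeff_map] at hn
  set a := Coeff.coeff f i with ha
  have h2 : Ψ (algebraMap A (A ⊗[k] B) a ^ n * y) = 0 := by
    rw [map_mul, map_pow, ← hn]
    congr 2
  have h3 := Coeff.mem_map_ker_of_map_eq_zero π _ h2
  have h4 : RingHom.ker π.toRingHom = 𝔞 := Ideal.mk_ker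
  rw [h4] at h3
  refine ⟨h * algebraMap A (A ⊗[k] B) a ^ n,
    fun hm => (hq.isPrime.mem_or_mem hm).elim hh (fun h5 => hi (hq.isPrime.mem_of_pow_mem n h5)), ?_⟩
  have h6 : h * algebraMap A (A ⊗[k] B) a ^ n * w = (algebraMap A (A ⊗[k] B) a ^ n * y) * f := by
    rw [mul_right_comm, ← hy]; ring
  rw [h6]
  exact Ideal.mul_mem_mul h3 hf

theorem flat (hB : ∀ (K : Type u) [Field K] [Algebra k K], IsDomain (K ⊗[k] B))
    (hI : IsLocPrincipal I) : Module.Flat A ((A ⊗[k] B) ⧸ I) := by
  have : Module.Flat A ((A ⊗[k] B) ⧸ I.restrictScalars A) := by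
    apply NZD.flat_quotient_of_inf_le
    rintro 𝔞 - w ⟨hw1, hw2⟩
    replace hw1 : w ∈ I := hw1
    rw [SetLike.mem_coe, Ideal.smul_top_eq_map] at hw2
    have h1 := hI.mem_map_mul hB 𝔞 hw1 hw2
    rw [← Ideal.smul_restrictScalars]
    exact h1
  exact Module.Flat.of_linearEquiv (Submodule.Quotient.restrictScalarsEquiv A I).symm

theorem fib_ne (hB : ∀ (K : Type u) [Field K] [Algebra k K], IsDomain (K ⊗[k] B))
    (hI : IsLocPrincipal I) (p : PrimeSpectrum A) : I.map (fib B p).toRingHom ≠ ⊥ := by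
  have := hB p.asIdeal.ResidueField
  let q : Ideal (A ⊗[k] B) := RingHom.ker (fib B p).toRingHom
  have hq : q.IsPrime := RingHom.ker_isPrime _
  obtain ⟨h, f, i, -, hf, hi, -⟩ := hI q hq
  intro hbot
  have h1 : fib B p f = 0 := by
    have : (fib B p).toRingHom f ∈ I.map (fib B p).toRingHom := Ideal.mem_map_of_mem _ hf
    rw [hbot] at this
    exact this
  apply hi
  change fib B p _ = 0
  rw [fib_eq_zero_iff]
  intro j
  rw [Algebra.algebraMap_eq_smul_one, Coeff.coeff_smul]
  exact Ideal.mul_mem_right _ _ ((fib_eq_zero_iff p f).mp h1 i)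

theorem isRelCartier (hB : ∀ (K : Type u) [Field K] [Algebra k K], IsDomain (K ⊗[k] B))
    (hI : IsLocPrincipal I) : IsRelCartier I :=
  ⟨hI.fg hB, hI.flat hB, hI.fib_ne hB⟩

theorem mul (hB : ∀ (K : Type u) [Field K] [Algebra k K], IsDomain (K ⊗[k] B))
    (hI : IsLocPrincipal I) (hJ : IsLocPrincipal J) : IsLocPrincipal (I * J) := by
  intro q hq
  obtain ⟨h, f, i, hh, hf, hi, hgen⟩ := hI q hq
  obtain ⟨h', f', i', hh', hf', hi', hgen'⟩ := hJ q hq
  have := hB (below q).asIdeal.ResidueField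
  have h1 : fib B (below q) (f * f') ≠ 0 := by
    rw [map_mul]
    exact mul_ne_zero (fib_ne_zero_of_coeff q f i hi) (fib_ne_zero_of_coeff q f' i' hi')
  obtain ⟨j, hj⟩ := exists_coeff_of_fib_ne_zero q _ h1
  refine ⟨h * h', f * f', j, fun hm => (hq.mem_or_mem hm).elim hh hh', Ideal.mul_mem_mul hf hf', hj,
    ?_⟩
  intro x hx
  refine Submodule.mul_induction_on hx (fun a ha b hb => ?_) (fun a b ha hb => ?_)
  · have h2 : h * h' * (a * b) = (h * a) * (h' * b) := by ring
    rw [h2, ← Ideal.span_singleton_mul_span_singleton]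
    exact Ideal.mul_mem_mul (hgen a ha) (hgen' b hb)
  · rw [mul_add]
    exact Ideal.add_mem _ ha hb

/-- base change `A → A'` -/
theorem map (hI : IsLocPrincipal I) (φ : A →ₐ[k] A') :
    IsLocPrincipal (I.map (Algebra.TensorProduct.map φ (AlgHom.id k B)).toRingHom) := by
  intro q' hq'
  set Φ := Algebra.TensorProduct.map φ (AlgHom.id k B) with hΦ
  obtain ⟨h, f, i, hh, hf, hi, hgen⟩ := hI (q'.comap Φ.toRingHom) (Ideal.comap_isPrime _ _)
  refine ⟨Φ h, Φ f, i, hh, Ideal.mem_map_of_mem Φ.toRingHom hf, ?_, ?_⟩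
  · rw [Coeff.coeff_map]
    intro hm
    apply hi
    change Φ _ ∈ q'
    rw [Algebra.TensorProduct.algebraMap_apply, hΦ, Algebra.TensorProduct.map_tmul]
    rw [Algebra.TensorProduct.algebraMap_apply] at hm
    exact hm
  · intro x hx
    refine Submodule.span_induction (p := fun x _ => Φ h * x ∈ Ideal.span {Φ f}) ?_ ?_ ?_ ?_ hx
    · rintro _ ⟨y, hy, rfl⟩
      obtain ⟨r, hr⟩ := Ideal.mem_span_singleton'.mp (hgen y hy)
      rw [Ideal.mem_span_singleton']
      exact ⟨Φ r, by
        change Φ r * Φ f = Φ h * Φ y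
        rw [← map_mul, hr, map_mul]⟩
    · simp
    · intro y z _ _ hy hz
      rw [mul_add]; exact Ideal.add_mem _ hy hz
    · intro c y _ hy
      rw [smul_eq_mul, mul_left_comm]; exact Ideal.mul_mem_left _ _ hy

/-- compatibility of the fibre maps with a map `B → B'` -/
theorem fib_mapRight (ψ : B →ₐ[k] B') (p : PrimeSpectrum A) (r : A ⊗[k] B) :
    fib B' p (Algebra.TensorProduct.map (AlgHom.id A A) ψ r) =
      Algebra.TensorProduct.map (AlgHom.id k p.asIdeal.ResidueField) ψ (fib B p r) := by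
  induction r using TensorProduct.induction_on with
  | zero => simp
  | tmul a b => simp
  | add r s hr hs => rw [map_add, map_add, map_add, map_add, hr, hs]

theorem mapRight_injective (K : Type u) [Field K] [Algebra k K] (ψ : B →ₐ[k] B')
    (hψ : Function.Injective ψ) :
    Function.Injective (Algebra.TensorProduct.map (AlgHom.id k K) ψ) := by
  have h1 : Function.Injective (LinearMap.lTensor K ψ.toLinearMap) :=
    Module.Flat.lTensor_preserves_injective_linearMap ψ.toLinearMap hψ
  intro x y hxy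
  apply h1
  have h2 : ∀ z : K ⊗[k] B, LinearMap.lTensor K ψ.toLinearMap z =
      Algebra.TensorProduct.map (AlgHom.id k K) ψ z := by
    intro z
    induction z using TensorProduct.induction_on with
    | zero => simp
    | tmul a b => simp
    | add r s hr hs => rw [map_add, map_add, hr, hs]
  rw [h2, h2, hxy]

/-- change of the second factor along an injective map `B → B'` (e.g. a localisation) -/
theorem mapRight (hI : IsLocPrincipal I) (ψ : B →ₐ[k] B') (hψ : Function.Injective ψ) :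
    IsLocPrincipal (I.map (Algebra.TensorProduct.map (AlgHom.id A A) ψ).toRingHom) := by
  intro q' hq'
  set Φ := Algebra.TensorProduct.map (AlgHom.id A A) ψ with hΦ
  have hq : (q'.comap Φ.toRingHom).IsPrime := Ideal.comap_isPrime _ _
  obtain ⟨h, f, i, hh, hf, hi, hgen⟩ := hI (q'.comap Φ.toRingHom) hq
  have hbelow : below (q'.comap Φ.toRingHom) = below q' := by
    apply PrimeSpectrum.ext
    ext a
    rw [mem_below_iff, mem_below_iff, Ideal.mem_comap]
    change Φ _ ∈ q' ↔ _
    rw [Φ.commutes]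
  have h1 : fib B' (below q') (Φ f) ≠ 0 := by
    rw [hΦ, fib_mapRight]
    intro h0
    have h2 := fib_ne_zero_of_coeff _ f i hi
    rw [hbelow] at h2
    exact h2 (mapRight_injective _ ψ hψ (h0.trans (map_zero _).symm))
  obtain ⟨j, hj⟩ := exists_coeff_of_fib_ne_zero q' _ h1
  refine ⟨Φ h, Φ f, j, hh, Ideal.mem_map_of_mem Φ.toRingHom hf, hj, ?_⟩
  intro x hx
  refine Submodule.span_induction (p := fun x _ => Φ h * x ∈ Ideal.span {Φ f}) ?_ ?_ ?_ ?_ hx
  · rintro _ ⟨y, hy, rfl⟩
    obtain ⟨r, hr⟩ := Ideal.mem_span_singleton'.mp (hgen y hy)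
    rw [Ideal.mem_span_singleton']
    exact ⟨Φ r, by
      change Φ r * Φ f = Φ h * Φ y
      rw [← map_mul, hr, map_mul]⟩
  · simp
  · intro y z _ _ hy hz
    rw [mul_add]; exact Ideal.add_mem _ hy hz
  · intro c y _ hy
    rw [smul_eq_mul, mul_left_comm]; exact Ideal.mul_mem_left _ _ hy

/-- the formation of `I` commutes with base change `A → A'` -/
theorem isBCMap_map (hB : ∀ (K : Type u) [Field K] [Algebra k K], IsDomain (K ⊗[k] B))
    (hI : IsLocPrincipal I) (φ : A →ₐ[k] A') :
    IsBCMap (Algebra.TensorProduct.map φ (AlgHom.id k B)).toRingHom (mapIncl _ I) :=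
  isBCMap_mapIncl _ I (hI.invertible hB) ((hI.map φ).invertible hB)

/-- the formation of `I` commutes with injective maps `B → B'` -/
theorem isBCMap_mapRight (hB : ∀ (K : Type u) [Field K] [Algebra k K], IsDomain (K ⊗[k] B))
    (hB' : ∀ (K : Type u) [Field K] [Algebra k K], IsDomain (K ⊗[k] B'))
    (hI : IsLocPrincipal I) (ψ : B →ₐ[k] B') (hψ : Function.Injective ψ) :
    IsBCMap (Algebra.TensorProduct.map (AlgHom.id A A) ψ).toRingHom (mapIncl _ I) :=
  isBCMap_mapIncl _ I (hI.invertible hB) ((hI.mapRight ψ hψ).invertible hB')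

end IsLocPrincipal

/-- a fibrewise nonzero element generates a relative Cartier divisor -/
theorem isLocPrincipal_span_singleton (f : A ⊗[k] B) (hf : ∀ p : PrimeSpectrum A, fib B p f ≠ 0) :
    IsLocPrincipal (Ideal.span {f}) := by
  intro q hq
  obtain ⟨i, hi⟩ := exists_coeff_of_fib_ne_zero q f (hf _)
  exact ⟨1, f, i, fun h => hq.ne_top ((Ideal.eq_top_iff_one _).mpr h),
    Ideal.mem_span_singleton_self f, hi, fun x hx => by rwa [one_mul]⟩

theorem isLocPrincipal_top [Nontrivial B] : IsLocPrincipal (⊤ : Ideal (A ⊗[k] B)) := by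
  rw [← Ideal.span_singleton_one]
  apply isLocPrincipal_span_singleton
  intro p
  rw [map_one]
  have : Nontrivial (p.asIdeal.ResidueField ⊗[k] B) := inferInstance
  exact one_ne_zero

/-! ### The same statements for `IsRelCartier` -/

namespace IsRelCartier

variable {I J : Ideal (A ⊗[k] B)}

theorem iff_isLocPrincipal
    (hD : ∀ (K : Type u) [Field K] [Algebra k K], IsDedekindDomain (K ⊗[k] B)) :
    IsRelCartier I ↔ IsLocPrincipal I :=
  ⟨fun h => h.isLocPrincipal hD, fun h => h.isRelCartier (isDomain_of_isDedekindDomain hD)⟩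

theorem invertible (hD : ∀ (K : Type u) [Field K] [Algebra k K], IsDedekindDomain (K ⊗[k] B))
    (hI : IsRelCartier I) : Module.Invertible (A ⊗[k] B) I :=
  (hI.isLocPrincipal hD).invertible (isDomain_of_isDedekindDomain hD)

theorem mul (hD : ∀ (K : Type u) [Field K] [Algebra k K], IsDedekindDomain (K ⊗[k] B))
    (hI : IsRelCartier I) (hJ : IsRelCartier J) : IsRelCartier (I * J) :=
  ((hI.isLocPrincipal hD).mul (isDomain_of_isDedekindDomain hD) (hJ.isLocPrincipal hD)).isRelCartier
    (isDomain_of_isDedekindDomain hD)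

theorem map (hD : ∀ (K : Type u) [Field K] [Algebra k K], IsDedekindDomain (K ⊗[k] B))
    (hI : IsRelCartier I) (φ : A →ₐ[k] A') :
    IsRelCartier (I.map (Algebra.TensorProduct.map φ (AlgHom.id k B)).toRingHom) :=
  ((hI.isLocPrincipal hD).map φ).isRelCartier (isDomain_of_isDedekindDomain hD)

theorem isBCMap_map (hD : ∀ (K : Type u) [Field K] [Algebra k K], IsDedekindDomain (K ⊗[k] B))
    (hI : IsRelCartier I) (φ : A →ₐ[k] A') :
    IsBCMap (Algebra.TensorProduct.map φ (AlgHom.id k B)).toRingHom (mapIncl _ I) :=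
  (hI.isLocPrincipal hD).isBCMap_map (isDomain_of_isDedekindDomain hD) φ

end IsRelCartier

theorem isRelCartier_span_singleton
    (hB : ∀ (K : Type u) [Field K] [Algebra k K], IsDomain (K ⊗[k] B))
    (f : A ⊗[k] B) (hf : ∀ p : PrimeSpectrum A, fib B p f ≠ 0) :
    IsRelCartier (Ideal.span {f}) :=
  (isLocPrincipal_span_singleton f hf).isRelCartier hB

end Fermat.Agent.S25.Cartier
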