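/-
S25, block K/Q: extension of a relative Cartier divisor from a basic open `D(y)` of a chart to the
whole chart, when the divisor is closed in the chart (contains an element `≡ 1 mod y`).
Owner: helper292.
-/
import Fermat.Agent.S25.Alg.RelCartier

set_option autoImplicit false

universe u

open scoped TensorProduct

namespace Fermat.Agent.S25.Cartier

open Fibre InvertibleIdeal

/-! ### localisation away from an element, instance-free -/

section Away

variable {R S : Type*} [CommRing R] [CommRing S]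

/-- an ideal containing an element `≡ 1 mod y` is `y`-saturated -/
theorem mem_of_pow_mul_mem (𝔞 : Ideal R) (y v w : R) (hu : 1 + y * v ∈ 𝔞) (N : ℕ)
    (hw : y ^ N * w ∈ 𝔞) : w ∈ 𝔞 := by
  set u := 1 + y * v with hu'
  obtain ⟨c, hc⟩ : u ∣ 1 - (1 - u) ^ N := by
    have := sub_dvd_pow_sub_pow (1 : R) (1 - u) N
    simpa using this
  have h1 : (1 - u) ^ N = (-v) ^ N * y ^ N := by
    have : 1 - u = (-v) * y := by rw [hu']; ring
    rw [this, mul_pow]
  have h2 : w = (-v) ^ N * (y ^ N * w) + (c * w) * u := by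
    linear_combination w * hc + w * h1
  rw [h2]
  exact 𝔞.add_mem (𝔞.mul_mem_left _ hw) (𝔞.mul_mem_left _ hu)

variable (Ψ : R →+* S) (y : R) (hloc : @IsLocalization.Away R _ y S _ Ψ.toAlgebra)

include hloc

theorem away_isUnit : IsUnit (Ψ y) := by
  let _ := Ψ.toAlgebra
  exact IsLocalization.Away.algebraMap_isUnit y

theorem away_surj (s : S) : ∃ (m : ℕ) (r : R), Ψ r = Ψ y ^ m * s := by
  let _ := Ψ.toAlgebra
  obtain ⟨n, a, h⟩ := IsLocalization.Away.surj y s
  exact ⟨n, a, by rw [mul_comm]; exact h.symm⟩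

theorem away_exists_of_eq {a b : R} (h : Ψ a = Ψ b) : ∃ n : ℕ, y ^ n * a = y ^ n * b := by
  let _ := Ψ.toAlgebra
  exact IsLocalization.Away.exists_of_eq y h

theorem away_map_comap (J : Ideal S) : (J.comap Ψ).map Ψ = J := by
  let _ := Ψ.toAlgebra
  exact IsLocalization.map_under (Submonoid.powers y) S J

theorem away_isPrime_map (q : Ideal R) (hq : q.IsPrime) (hy : y ∉ q) : (q.map Ψ).IsPrime := by
  let _ := Ψ.toAlgebra
  exact IsLocalization.isPrime_of_isPrime_disjoint (Submonoid.powers y) S q hq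
    ((Ideal.disjoint_powers_iff_notMem y hq.isRadical).mpr hy)

theorem away_comap_map (q : Ideal R) (hq : q.IsPrime) (hy : y ∉ q) : (q.map Ψ).comap Ψ = q := by
  let _ := Ψ.toAlgebra
  exact IsLocalization.under_map_of_isPrime_disjoint (Submonoid.powers y) S hq
    ((Ideal.disjoint_powers_iff_notMem y hq.isRadical).mpr hy)

theorem away_exists_pow_mul_mem (𝔞 : Ideal R) (w : R) (hw : Ψ w ∈ 𝔞.map Ψ) :
    ∃ N : ℕ, y ^ N * w ∈ 𝔞 := by
  obtain ⟨⟨⟨a, ha⟩, ⟨_, n, rfl⟩⟩, h⟩ : ∃ x : 𝔞 × Submonoid.powers y, Ψ w * Ψ x.2 = Ψ x.1 := by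
    let _ := Ψ.toAlgebra
    exact (IsLocalization.mem_map_algebraMap_iff (Submonoid.powers y) S).mp hw
  simp only at h
  rw [← map_mul] at h
  obtain ⟨m, hm⟩ := away_exists_of_eq Ψ y hloc h
  refine ⟨m + n, ?_⟩
  have : y ^ (m + n) * w = y ^ m * a := by
    rw [← hm, pow_add]; ring
  rw [this]
  exact 𝔞.mul_mem_left _ ha

/-- a closed subscheme of `D(y)` which is closed in the whole spectrum: finite generation -/
theorem away_fg_comap (J : Ideal S) (hJ : J.FG) (v : R) (hu : Ψ (1 + y * v) ∈ J) :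
    (J.comap Ψ).FG := by
  classical
  obtain ⟨G, hG⟩ := hJ
  choose m r hr using fun s : S => away_surj Ψ y hloc s
  have hY := away_isUnit Ψ y hloc
  let G' : Finset R := insert (1 + y * v) (G.image r)
  have hG'le : Ideal.span (G' : Set R) ≤ J.comap Ψ := by
    rw [Ideal.span_le]
    intro x hx
    rw [Finset.mem_coe, Finset.mem_insert, Finset.mem_image] at hx
    rcases hx with rfl | ⟨s, hs, rfl⟩
    · exact hu
    · change Ψ (r s) ∈ J
      rw [hr s]
      exact J.mul_mem_left _ (hG ▸ Ideal.subset_span hs)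
  refine ⟨G', le_antisymm hG'le ?_⟩
  intro w hw
  have h1 : J ≤ (Ideal.span (G' : Set R)).map Ψ := by
    rw [← hG, Ideal.span_le]
    intro s hs
    obtain ⟨c, hc⟩ := (hY.pow (m s)).exists_left_inv
    have h2 : s = c * Ψ (r s) := by rw [hr s, ← mul_assoc, hc, one_mul]
    rw [SetLike.mem_coe, h2]
    refine Ideal.mul_mem_left _ _ (Ideal.mem_map_of_mem _ (Ideal.subset_span ?_))
    rw [Finset.mem_coe, Finset.mem_insert]
    exact Or.inr (Finset.mem_image_of_mem r hs)
  obtain ⟨N, hN⟩ := away_exists_pow_mul_mem Ψ y hloc _ w (h1 hw)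
  exact mem_of_pow_mul_mem _ y v w
    (Ideal.subset_span (by rw [Finset.mem_coe]; exact Finset.mem_insert_self _ _)) N hN

end Away

section Square

variable {R S R' S' : Type*} [CommRing R] [CommRing S] [CommRing R'] [CommRing S']
  (Ψ : R →+* S) (Ψ' : R' →+* S') (ΦR : R →+* R') (ΦS : S →+* S')
  (hsq : ∀ r, Ψ' (ΦR r) = ΦS (Ψ r))

include hsq

theorem map_map_square (I : Ideal R) : (I.map Ψ).map ΦS = (I.map ΦR).map Ψ' := by
  rw [Ideal.map_map, Ideal.map_map]
  congr 1
  ext r
  exact (hsq r).symm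

/-- The extension by the unit ideal across `V(y)` commutes with base change. -/
theorem map_comap_away_eq (y : R) (hloc : @IsLocalization.Away R _ y S _ Ψ.toAlgebra)
    (hloc' : @IsLocalization.Away R' _ (ΦR y) S' _ Ψ'.toAlgebra)
    (J : Ideal S) (v : R) (hu : Ψ (1 + y * v) ∈ J) :
    (J.comap Ψ).map ΦR = (J.map ΦS).comap Ψ' := by
  apply le_antisymm
  · rw [Ideal.map_le_iff_le_comap]
    intro x hx
    change Ψ' (ΦR x) ∈ J.map ΦS
    rw [hsq]
    exact Ideal.mem_map_of_mem _ hx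
  · intro w hw
    have h1 : J.map ΦS = ((J.comap Ψ).map ΦR).map Ψ' := by
      rw [← map_map_square Ψ Ψ' ΦR ΦS hsq, away_map_comap Ψ y hloc]
    have h2 : Ψ' w ∈ ((J.comap Ψ).map ΦR).map Ψ' := h1 ▸ hw
    obtain ⟨N, hN⟩ := away_exists_pow_mul_mem Ψ' (ΦR y) hloc' _ w h2
    refine mem_of_pow_mul_mem _ (ΦR y) (ΦR v) w ?_ N hN
    have h3 : 1 + ΦR y * ΦR v = ΦR (1 + y * v) := by simp
    rw [h3]
    exact Ideal.mem_map_of_mem _ hu

end Square

section MapInclOf

variable {R S : Type u} [CommRing R] [CommRing S]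

/-- the canonical semilinear map `I → I'` when `I S ⊆ I'` -/
def mapInclOf (f : R →+* S) (I : Ideal R) (I' : Ideal S) (h : I.map f ≤ I') : I →ₛₗ[f] I' where
  toFun x := ⟨f x, h (Ideal.mem_map_of_mem f x.2)⟩
  map_add' a b := Subtype.ext (map_add f a.1 b.1)
  map_smul' r a := Subtype.ext (map_mul f r a.1)

@[simp] theorem coe_mapInclOf (f : R →+* S) (I : Ideal R) (I' : Ideal S) (h : I.map f ≤ I')
    (x : I) : ((mapInclOf f I I' h x : I') : S) = f x := rfl

theorem isBCMap_mapInclOf (f : R →+* S) (I : Ideal R) (I' : Ideal S) (h : I.map f = I')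
    (h1 : Module.Invertible R I) (h2 : Module.Invertible S I') :
    IsBCMap f (mapInclOf f I I' h.le) := by
  subst h
  exact isBCMap_mapIncl f I h1 h2

end MapInclOf

variable {k : Type u} [Field k] {A A' B C : Type u} [CommRing A] [CommRing A'] [CommRing B]
  [CommRing C] [Algebra k A] [Algebra k A'] [Algebra k B] [Algebra k C]

/-- **Extension across `V(y)`.**  `C = B[1/y]`.  A relative Cartier divisor `V(J)` of
`Spec (A ⊗ C) = D(y)` which is closed in `Spec (A ⊗ B)` (there is `u ≡ 1 mod y` vanishing on it) is a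
relative Cartier divisor of `Spec (A ⊗ B)`. -/
theorem IsLocPrincipal.comap_away (ψ : B →ₐ[k] C) (y : B)
    (hloc : @IsLocalization.Away (A ⊗[k] B) _ ((1 : A) ⊗ₜ[k] y) (A ⊗[k] C) _
      (Algebra.TensorProduct.map (AlgHom.id A A) ψ).toRingHom.toAlgebra)
    {J : Ideal (A ⊗[k] C)} (hJ : IsLocPrincipal J) (hfg : J.FG) (v : A ⊗[k] B)
    (hu : Algebra.TensorProduct.map (AlgHom.id A A) ψ (1 + ((1 : A) ⊗ₜ[k] y) * v) ∈ J) :
    IsLocPrincipal (J.comap (Algebra.TensorProduct.map (AlgHom.id A A) ψ).toRingHom) := by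
  classical
  intro q hq
  set Ψ := Algebra.TensorProduct.map (AlgHom.id A A) ψ with hΨ
  set Y : A ⊗[k] B := (1 : A) ⊗ₜ[k] y with hY
  set u := 1 + Y * v with hu'
  by_cases hy : Y ∈ q
  · have huq : u ∉ q := fun h => hq.ne_top ((Ideal.eq_top_iff_one _).mpr (by
      have h1 : (1 : A ⊗[k] B) = u - Y * v := by rw [hu']; ring
      rw [h1]
      exact q.sub_mem h (q.mul_mem_right _ hy)))
    have hfib : fib B (below q) u ≠ 0 := fun h0 =>
      huq ((Ideal.map_le_iff_le_comap.mpr le_rfl :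
        (below q).asIdeal.map (algebraMap A (A ⊗[k] B)) ≤ q) (mem_map_of_fib_eq_zero _ u h0))
    obtain ⟨i, hi⟩ := exists_coeff_of_fib_ne_zero q u hfib
    exact ⟨u, u, i, huq, hu, hi,
      fun x _ => Ideal.mul_mem_right _ _ (Ideal.mem_span_singleton_self u)⟩
  · have hq' := away_isPrime_map Ψ.toRingHom Y hloc q hq hy
    have hcomap := away_comap_map Ψ.toRingHom Y hloc q hq hy
    set q' := q.map Ψ.toRingHom with hq'def
    obtain ⟨h', f', i', hh', hf', hi', hgen'⟩ := hJ q' hq'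
    obtain ⟨m, h, hh⟩ := away_surj Ψ.toRingHom Y hloc h'
    obtain ⟨m', f, hf⟩ := away_surj Ψ.toRingHom Y hloc f'
    replace hh : Ψ h = Ψ Y ^ m * h' := hh
    replace hf : Ψ f = Ψ Y ^ m' * f' := hf
    have hYu : IsUnit (Ψ Y) := away_isUnit Ψ.toRingHom Y hloc
    have hYq' : Ψ Y ∉ q' := fun hmem => hq'.ne_top (Ideal.eq_top_of_isUnit_mem _ hmem hYu)
    have hfJ : f ∈ J.comap Ψ.toRingHom := by
      change Ψ f ∈ J
      rw [hf]
      exact J.mul_mem_left _ hf'
    have hhq : h ∉ q := by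
      rw [← hcomap]
      change ¬ (Ψ h ∈ q')
      rw [hh]
      intro hmem
      rcases hq'.mem_or_mem hmem with h1 | h1
      · exact hYq' (hq'.mem_of_pow_mem _ h1)
      · exact hh' h1
    have step : ∀ x ∈ J.comap Ψ.toRingHom, ∃ N : ℕ, Y ^ N * (h * x) ∈ Ideal.span {f} := by
      intro x hx
      obtain ⟨c', hc'⟩ := Ideal.mem_span_singleton'.mp (hgen' (Ψ x) hx)
      apply away_exists_pow_mul_mem Ψ.toRingHom Y hloc
      rw [Ideal.map_span, Set.image_singleton, Ideal.mem_span_singleton']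
      obtain ⟨e, he⟩ := (hYu.pow m').exists_left_inv
      refine ⟨Ψ Y ^ m * c' * e, ?_⟩
      change Ψ Y ^ m * c' * e * Ψ f = Ψ (h * x)
      rw [map_mul, hh, hf]
      linear_combination (Ψ Y ^ m * c' * f') * he + (Ψ Y ^ m) * hc'
    obtain ⟨G, hG⟩ := away_fg_comap Ψ.toRingHom Y hloc J hfg v hu
    choose! N hN using step
    have hH : ∀ x ∈ J.comap Ψ.toRingHom, (Y ^ G.sup N * h) * x ∈ Ideal.span {f} := by
      intro x hx
      rw [← hG] at hx
      refine Submodule.span_induction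
        (p := fun x _ => (Y ^ G.sup N * h) * x ∈ Ideal.span {f}) ?_ ?_ ?_ ?_ hx
      · intro g hg
        have hgJ : g ∈ J.comap Ψ.toRingHom := hG ▸ Ideal.subset_span hg
        obtain ⟨d, hd⟩ := Nat.exists_eq_add_of_le (Finset.le_sup (f := N) hg)
        have h1 : (Y ^ G.sup N * h) * g = Y ^ d * (Y ^ N g * (h * g)) := by
          rw [hd, pow_add]; ring
        rw [h1]
        exact Ideal.mul_mem_left _ _ (hN g hgJ)
      · simp
      · intro a b _ _ ha hb
        rw [mul_add]; exact Ideal.add_mem _ ha hb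
      · intro c a _ ha
        rw [smul_eq_mul, mul_left_comm]; exact Ideal.mul_mem_left _ _ ha
    have hbelow : below q = below q' := by
      apply PrimeSpectrum.ext
      ext a
      rw [mem_below_iff, mem_below_iff]
      conv_lhs => rw [← hcomap]
      change Ψ _ ∈ q' ↔ _
      rw [Ψ.commutes]
    have hfib : fib B (below q) f ≠ 0 := by
      intro h0
      rw [hbelow] at h0
      have h1 : fib C (below q') (Ψ f) = 0 := by
        rw [hΨ, IsLocPrincipal.fib_mapRight, h0, map_zero]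
      rw [hf, map_mul, map_pow] at h1
      have hunit : IsUnit (fib C (below q') (Ψ Y)) := hYu.map _
      exact fib_ne_zero_of_coeff q' f' i' hi' ((hunit.pow m').mul_right_eq_zero.mp h1)
    obtain ⟨i, hi⟩ := exists_coeff_of_fib_ne_zero q f hfib
    exact ⟨Y ^ G.sup N * h, f, i,
      fun hm => (hq.mem_or_mem hm).elim (fun h1 => hy (hq.mem_of_pow_mem _ h1)) hhq, hfJ, hi, hH⟩

end Fermat.Agent.S25.Cartier
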