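/-
S25, block K (task K4): coordinates on `A ⊗[k] B` with respect to a `k`-basis of `B`.
Owner: helper292.
-/
import Mathlib

set_option autoImplicit false

open scoped TensorProduct

namespace Fermat.Agent.S25.Coeff

variable {k : Type*} [Field k] (B : Type*) [CommRing B] [Algebra k B]
variable (A : Type*) [CommRing A] [Algebra k A]

/-- index set of the chosen `k`-basis of `B` -/
abbrev Idx (k : Type*) [Field k] (B : Type*) [CommRing B] [Algebra k B] : Type _ :=
  Module.Basis.ofVectorSpaceIndex k B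

/-- the `A`-basis of `A ⊗[k] B` induced by the chosen `k`-basis of `B` -/
noncomputable def bas : Module.Basis (Idx k B) A (A ⊗[k] B) :=
  Algebra.TensorProduct.basis A (Module.Basis.ofVectorSpace k B)

variable {A B}

/-- the coordinates of an element of `A ⊗[k] B` -/
noncomputable def coeff (r : A ⊗[k] B) (i : Idx k B) : A := (bas B A).repr r i

theorem coeff_tmul (a : A) (b : B) (i : Idx k B) :
    coeff (a ⊗ₜ[k] b) i = a * algebraMap k A ((Module.Basis.ofVectorSpace k B).repr b i) := by
  simp [coeff, bas, Algebra.TensorProduct.basis_repr_tmul]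

@[simp] theorem coeff_zero (i : Idx k B) : coeff (0 : A ⊗[k] B) i = 0 := by simp [coeff]

theorem coeff_add (r s : A ⊗[k] B) (i : Idx k B) : coeff (r + s) i = coeff r i + coeff s i := by
  simp [coeff]

theorem coeff_smul (a : A) (r : A ⊗[k] B) (i : Idx k B) : coeff (a • r) i = a * coeff r i := by
  simp [coeff]

theorem eq_zero_iff (r : A ⊗[k] B) : r = 0 ↔ ∀ i, coeff r i = 0 := by
  constructor
  · rintro rfl i; simp
  · intro h
    apply (bas B A).repr.injective
    ext i
    rw [map_zero, Finsupp.zero_apply]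
    exact h i

theorem finite_support (r : A ⊗[k] B) : {i | coeff r i ≠ 0}.Finite :=
  ((bas B A).repr r).support.finite_toSet.subset fun i hi => by
    simpa [coeff] using hi

variable {A' : Type*} [CommRing A'] [Algebra k A']

theorem coeff_map (φ : A →ₐ[k] A') (r : A ⊗[k] B) (i : Idx k B) :
    coeff (Algebra.TensorProduct.map φ (AlgHom.id k B) r) i = φ (coeff r i) := by
  induction r using TensorProduct.induction_on with
  | zero => simp
  | tmul a b => simp [coeff_tmul]
  | add r s hr hs => rw [map_add, coeff_add, coeff_add, map_add, hr, hs]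

theorem map_eq_zero_iff (φ : A →ₐ[k] A') (r : A ⊗[k] B) :
    Algebra.TensorProduct.map φ (AlgHom.id k B) r = 0 ↔ ∀ i, φ (coeff r i) = 0 := by
  rw [eq_zero_iff]
  simp only [coeff_map]

/-- an element all of whose coordinates lie in `𝔞` lies in `𝔞 (A ⊗ B)` -/
theorem mem_map_of_coeff_mem (𝔞 : Ideal A) (r : A ⊗[k] B) (h : ∀ i, coeff r i ∈ 𝔞) :
    r ∈ 𝔞.map (algebraMap A (A ⊗[k] B)) := by
  rw [← (bas B A).linearCombination_repr r, Finsupp.linearCombination_apply, Finsupp.sum]
  refine Ideal.sum_mem _ fun i _ => ?_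
  rw [Algebra.smul_def]
  exact Ideal.mul_mem_right _ _ (Ideal.mem_map_of_mem _ (h i))

/-- the kernel of `A ⊗ B → A' ⊗ B` -/
theorem mem_map_ker_of_map_eq_zero (φ : A →ₐ[k] A') (r : A ⊗[k] B)
    (h : Algebra.TensorProduct.map φ (AlgHom.id k B) r = 0) :
    r ∈ (RingHom.ker φ.toRingHom).map (algebraMap A (A ⊗[k] B)) :=
  mem_map_of_coeff_mem _ r fun i => (map_eq_zero_iff φ r).mp h i

/-- if `r` dies in `A[1/a] ⊗ B` then it is killed by a power of `a` -/
theorem exists_pow_smul_eq_zero (a : A) (φ : A →ₐ[k] A')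
    (hφ : ∀ x : A, φ x = 0 → ∃ n : ℕ, a ^ n * x = 0) (r : A ⊗[k] B)
    (h : Algebra.TensorProduct.map φ (AlgHom.id k B) r = 0) : ∃ n : ℕ, a ^ n • r = 0 := by
  classical
  have h1 := (map_eq_zero_iff φ r).mp h
  choose n hn using fun i => hφ _ (h1 i)
  refine ⟨(finite_support r).toFinset.sup n, ?_⟩
  rw [eq_zero_iff]
  intro i
  rw [coeff_smul]
  by_cases hi : coeff r i = 0
  · rw [hi, mul_zero]
  · have hle : n i ≤ (finite_support r).toFinset.sup n :=
      Finset.le_sup (f := n) (by simpa using hi)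
    obtain ⟨d, hd⟩ := Nat.exists_eq_add_of_le hle
    rw [hd, pow_add, mul_comm (a ^ n i), mul_assoc, hn i, mul_zero]

end Fermat.Agent.S25.Coeff
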