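/-
S25, block K (task K4): the map `A ⊗[k] B → κ(p) ⊗[k] B` to the fibre over a prime `p` of `A`.
Owner: helper292.
-/
import Fermat.Agent.S25.Alg.Coeff

set_option autoImplicit false

open scoped TensorProduct

namespace Fermat.Agent.S25.Fibre

variable {k : Type*} [Field k] {A : Type*} [CommRing A] [Algebra k A]
variable (B : Type*) [CommRing B] [Algebra k B]

/-- restriction to the fibre over `p` -/
noncomputable abbrev fib (p : PrimeSpectrum A) :
    A ⊗[k] B →ₐ[k] p.asIdeal.ResidueField ⊗[k] B :=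
  Algebra.TensorProduct.map (IsScalarTower.toAlgHom k A p.asIdeal.ResidueField) (AlgHom.id k B)

variable {B}

theorem fib_tmul (p : PrimeSpectrum A) (a : A) (b : B) :
    fib B p (a ⊗ₜ[k] b) = algebraMap A p.asIdeal.ResidueField a ⊗ₜ[k] b := by
  simp [fib]

theorem fib_eq_zero_iff (p : PrimeSpectrum A) (r : A ⊗[k] B) :
    fib B p r = 0 ↔ ∀ i, Coeff.coeff r i ∈ p.asIdeal := by
  rw [Coeff.map_eq_zero_iff]
  refine forall_congr' fun i => ?_
  exact Ideal.algebraMap_residueField_eq_zero

/-- the kernel of the restriction to the fibre is `p (A ⊗ B)` -/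
theorem mem_map_of_fib_eq_zero (p : PrimeSpectrum A) (r : A ⊗[k] B) (h : fib B p r = 0) :
    r ∈ p.asIdeal.map (algebraMap A (A ⊗[k] B)) :=
  Coeff.mem_map_of_coeff_mem _ r ((fib_eq_zero_iff p r).mp h)

/-- clearing denominators in the residue field -/
theorem exists_mul_eq_algebraMap (p : PrimeSpectrum A) (c : p.asIdeal.ResidueField) :
    ∃ a : A, a ∉ p.asIdeal ∧ ∃ a' : A, algebraMap A p.asIdeal.ResidueField a * c =
      algebraMap A p.asIdeal.ResidueField a' := by
  obtain ⟨x, y, hy, rfl⟩ := IsFractionRing.div_surjective (A := A ⧸ p.asIdeal) c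
  obtain ⟨a', rfl⟩ := Ideal.Quotient.mk_surjective x
  obtain ⟨a, rfl⟩ := Ideal.Quotient.mk_surjective y
  have ha : a ∉ p.asIdeal := by
    intro h
    have : Ideal.Quotient.mk p.asIdeal a = 0 := Ideal.Quotient.eq_zero_iff_mem.mpr h
    rw [this] at hy
    exact zero_notMem_nonZeroDivisors hy
  refine ⟨a, ha, a', ?_⟩
  have h1 : algebraMap (A ⧸ p.asIdeal) p.asIdeal.ResidueField (Ideal.Quotient.mk p.asIdeal a) =
      algebraMap A p.asIdeal.ResidueField a := Ideal.algebraMap_quotient_residueField_mk _ a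
  have h2 : algebraMap (A ⧸ p.asIdeal) p.asIdeal.ResidueField (Ideal.Quotient.mk p.asIdeal a') =
      algebraMap A p.asIdeal.ResidueField a' := Ideal.algebraMap_quotient_residueField_mk _ a'
  rw [h1, h2]
  have h3 : algebraMap A p.asIdeal.ResidueField a ≠ 0 := by
    rwa [Ne, Ideal.algebraMap_residueField_eq_zero]
  field_simp

/-- clearing denominators in the fibre -/
theorem exists_mul_eq_fib (p : PrimeSpectrum A) (z : p.asIdeal.ResidueField ⊗[k] B) :
    ∃ a : A, a ∉ p.asIdeal ∧ ∃ r : A ⊗[k] B,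
      fib B p (algebraMap A (A ⊗[k] B) a) * z = fib B p r := by
  induction z using TensorProduct.induction_on with
  | zero => exact ⟨1, fun h => p.2.ne_top ((Ideal.eq_top_iff_one _).mpr h), 0, by simp⟩
  | tmul c b =>
    obtain ⟨a, ha, a', h⟩ := exists_mul_eq_algebraMap p c
    refine ⟨a, ha, a' ⊗ₜ b, ?_⟩
    rw [Algebra.TensorProduct.algebraMap_apply, fib_tmul, fib_tmul,
      Algebra.TensorProduct.tmul_mul_tmul, one_mul]
    exact congrArg (· ⊗ₜ[k] b) h
  | add z₁ z₂ h₁ h₂ =>
    obtain ⟨a₁, ha₁, r₁, e₁⟩ := h₁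
    obtain ⟨a₂, ha₂, r₂, e₂⟩ := h₂
    refine ⟨a₁ * a₂, fun h => (p.2.mem_or_mem h).elim ha₁ ha₂,
      algebraMap A (A ⊗[k] B) a₂ * r₁ + algebraMap A (A ⊗[k] B) a₁ * r₂, ?_⟩
    rw [map_mul, map_mul, map_add, map_mul, map_mul, ← e₁, ← e₂]
    ring

section Prime

variable (q : Ideal (A ⊗[k] B)) [hq : q.IsPrime]

/-- the prime of `A` below a prime of `A ⊗ B` -/
def below : PrimeSpectrum A := ⟨q.comap (algebraMap A (A ⊗[k] B)), inferInstance⟩

theorem mem_below_iff (a : A) : a ∈ (below q).asIdeal ↔ algebraMap A (A ⊗[k] B) a ∈ q := Iff.rfl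

theorem below_eq : (below q).asIdeal =
    q.comap (Algebra.TensorProduct.includeLeft : A →ₐ[k] A ⊗[k] B).toRingHom := by
  ext a
  rw [mem_below_iff, Ideal.mem_comap, Algebra.TensorProduct.algebraMap_apply]
  rfl

/-- `κ(below q) → κ(q)` -/
noncomputable def resMap : (below q).asIdeal.ResidueField →ₐ[k] q.ResidueField :=
  Ideal.ResidueField.mapₐ (below q).asIdeal q
    (Algebra.TensorProduct.includeLeft : A →ₐ[k] A ⊗[k] B) (below_eq q)

theorem resMap_algebraMap (a : A) :
    resMap q (algebraMap A (below q).asIdeal.ResidueField a) =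
      algebraMap (A ⊗[k] B) q.ResidueField (a ⊗ₜ 1) := by
  rw [resMap, Ideal.ResidueField.mapₐ_apply, Ideal.ResidueField.map_algebraMap]
  rfl

/-- the map from the fibre over `below q` to the residue field of `q` -/
noncomputable def toResidue : (below q).asIdeal.ResidueField ⊗[k] B →ₐ[k] q.ResidueField :=
  Algebra.TensorProduct.lift (resMap q)
    ((IsScalarTower.toAlgHom k (A ⊗[k] B) q.ResidueField).comp
      (Algebra.TensorProduct.includeRight : B →ₐ[k] A ⊗[k] B))
    (fun _ _ => Commute.all _ _)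

theorem toResidue_fib (r : A ⊗[k] B) :
    toResidue q (fib B (below q) r) = algebraMap (A ⊗[k] B) q.ResidueField r := by
  induction r using TensorProduct.induction_on with
  | zero => simp
  | tmul a b =>
    rw [fib_tmul, toResidue, Algebra.TensorProduct.lift_tmul, resMap_algebraMap]
    simp only [AlgHom.coe_comp, Function.comp_apply, IsScalarTower.coe_toAlgHom',
      Algebra.TensorProduct.includeRight_apply]
    rw [← map_mul]
    congr 1
    simp
  | add r s hr hs => rw [map_add, map_add, map_add, hr, hs]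

theorem toResidue_fib_eq_zero_iff (r : A ⊗[k] B) :
    toResidue q (fib B (below q) r) = 0 ↔ r ∈ q := by
  rw [toResidue_fib, Ideal.algebraMap_residueField_eq_zero]

/-- the prime of the fibre corresponding to `q` -/
noncomputable def fibPrime : Ideal ((below q).asIdeal.ResidueField ⊗[k] B) :=
  RingHom.ker (toResidue q).toRingHom

instance : (fibPrime q).IsPrime := RingHom.ker_isPrime _

theorem mem_fibPrime_iff (z : (below q).asIdeal.ResidueField ⊗[k] B) :
    z ∈ fibPrime q ↔ toResidue q z = 0 := Iff.rfl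

end Prime

end Fermat.Agent.S25.Fibre
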